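/-
S22 support library: derivatives of functions on the upper half plane.
-/
import Mathlib

set_option autoImplicit false

open UpperHalfPlane Filter Function
open scoped MatrixGroups ModularForm Manifold Topology

namespace Fermat.Agent.S22

/-- `F' ` is the complex derivative of `F : ℍ → ℂ` at every point of the upper half plane. -/
def HasDerivH (F F' : ℍ → ℂ) : Prop :=
  ∀ z : ℍ, HasDerivAt (F ∘ ofComplex) (F' z) (z : ℂ)

theorem HasDerivH.mdiff {F F' : ℍ → ℂ} (h : HasDerivH F F') : MDiff F := by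
  rw [UpperHalfPlane.mdifferentiable_iff]
  intro z hz
  exact (h ⟨z, hz⟩).differentiableAt.differentiableWithinAt

theorem HasDerivH.add {F F' G G' : ℍ → ℂ} (hF : HasDerivH F F') (hG : HasDerivH G G') :
    HasDerivH (F + G) (F' + G') := fun z => (hF z).add (hG z)

theorem HasDerivH.sub {F F' G G' : ℍ → ℂ} (hF : HasDerivH F F') (hG : HasDerivH G G') :
    HasDerivH (F - G) (F' - G') := fun z => (hF z).sub (hG z)

theorem HasDerivH.const_mul {F F' : ℍ → ℂ} (c : ℂ) (hF : HasDerivH F F') :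
    HasDerivH (fun z => c * F z) (fun z => c * F' z) := fun z => (hF z).const_mul c

theorem HasDerivH.mul {F F' G G' : ℍ → ℂ} (hF : HasDerivH F F') (hG : HasDerivH G G') :
    HasDerivH (fun z => F z * G z) (fun z => F' z * G z + F z * G' z) := by
  intro z
  have h := (hF z).mul (hG z)
  simp only [Function.comp_apply, ofComplex_apply] at h
  exact h

theorem HasDerivH.sum {ι : Type*} (s : Finset ι) {F F' : ι → ℍ → ℂ}
    (h : ∀ i ∈ s, HasDerivH (F i) (F' i)) :
    HasDerivH (fun z => ∑ i ∈ s, F i z) (fun z => ∑ i ∈ s, F' i z) := by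
  intro z
  have h1 := HasDerivAt.fun_sum (u := s) (A := fun i => F i ∘ ofComplex)
    (A' := fun i => F' i z) (x := (z : ℂ)) (fun i hi => h i hi z)
  exact h1

theorem hasDerivH_const (c : ℂ) : HasDerivH (fun _ => c) (fun _ => 0) :=
  fun z => hasDerivAt_const (z : ℂ) c

/-- `z ↦ (x - z)^j` has derivative `-(j * (x - z)^(j-1))`. -/
theorem hasDerivH_sub_pow (x : ℂ) (j : ℕ) :
    HasDerivH (fun z : ℍ => (x - (z : ℂ)) ^ j) (fun z : ℍ => -((j : ℂ) * (x - (z : ℂ)) ^ (j - 1))) := by
  intro z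
  have h1 : HasDerivAt (fun w : ℂ => (x - w) ^ j) (-((j : ℂ) * (x - (z : ℂ)) ^ (j - 1))) (z : ℂ) := by
    have h2 : HasDerivAt (fun w : ℂ => x - w) (-1) (z : ℂ) := by
      simpa using (hasDerivAt_id (z : ℂ)).const_sub x
    have h3 := h2.pow j
    refine h3.congr_deriv ?_
    ring
  refine h1.congr_of_eventuallyEq ?_
  have hopen : {w : ℂ | 0 < w.im} ∈ 𝓝 (z : ℂ) := isOpen_upperHalfPlaneSet.mem_nhds z.im_pos
  filter_upwards [hopen] with w hw
  simp only [Function.comp_apply]
  rw [ofComplex_apply_of_im_pos hw]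

/-- Chain rule for Möbius transformations of positive determinant. -/
theorem HasDerivH.comp_smul {F F' : ℍ → ℂ} (hF : HasDerivH F F') {A : GL (Fin 2) ℝ}
    (hA : 0 < A.det.val) :
    HasDerivH (fun z => F (A • z))
      (fun z => F' (A • z) * ((A.det.val : ℝ) : ℂ) / denom A z ^ 2) := by
  intro z
  have hA' : 0 < A.val.det := hA
  have h1 := (hasStrictDerivAt_smul hA' z).hasDerivAt
  have h2 : HasDerivAt (F ∘ ofComplex) (F' (A • z)) ((fun w : ℂ => ((A • ofComplex w : ℍ) : ℂ)) (z : ℂ)) := by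
    simpa using hF (A • z)
  have h3 := h2.comp (z : ℂ) h1
  have h4 : (fun z => F (A • z)) ∘ ofComplex
      = (F ∘ ofComplex) ∘ (fun w : ℂ => ((A • ofComplex w : ℍ) : ℂ)) := by
    funext w
    simp
  rw [h4]
  refine h3.congr_deriv ?_
  show F' (A • z) * (((A.val.det : ℝ) : ℂ) / denom A ↑z ^ 2)
    = F' (A • z) * ((A.det.val : ℝ) : ℂ) / denom A ↑z ^ 2
  rw [mul_div_assoc]
  rfl

/-- A function on `ℍ` with zero derivative is constant. -/
theorem HasDerivH.const_of_zero {F : ℍ → ℂ} (hF : HasDerivH F (fun _ => 0)) (z z' : ℍ) :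
    F z = F z' := by
  have hconv : Convex ℝ {w : ℂ | 0 < w.im} := by
    have : {w : ℂ | 0 < w.im} = Complex.imCLM ⁻¹' (Set.Ioi 0) := rfl
    rw [this]
    exact (convex_Ioi (0 : ℝ)).is_linear_preimage Complex.imCLM.isLinear
  have hdiff : DifferentiableOn ℂ (F ∘ ofComplex) {w : ℂ | 0 < w.im} := fun w hw =>
    (hF ⟨w, hw⟩).differentiableAt.differentiableWithinAt
  have hderiv : Set.EqOn (deriv (F ∘ ofComplex)) 0 {w : ℂ | 0 < w.im} := fun w hw =>
    (hF ⟨w, hw⟩).deriv
  have h := isOpen_upperHalfPlaneSet.is_const_of_deriv_eq_zero hconv.isPreconnected hdiff hderiv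
    (x := (z : ℂ)) (y := (z' : ℂ)) z.im_pos z'.im_pos
  simpa using h

/-- Two functions on `ℍ` with the same derivative differ by a constant. -/
theorem HasDerivH.eq_add_const {F G F' : ℍ → ℂ} (hF : HasDerivH F F') (hG : HasDerivH G F') :
    ∃ c : ℂ, ∀ z, F z = G z + c := by
  have h : HasDerivH (F - G) (fun _ => 0) := by
    intro z
    have := (hF z).sub (hG z)
    rw [sub_self] at this
    exact this
  refine ⟨F UpperHalfPlane.I - G UpperHalfPlane.I, fun z => ?_⟩
  have h1 := h.const_of_zero z UpperHalfPlane.I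
  simp only [Pi.sub_apply] at h1
  linear_combination h1

theorem HasDerivH.unique {F F' F'' : ℍ → ℂ} (h : HasDerivH F F') (h' : HasDerivH F F'') :
    F' = F'' := funext fun z => (h z).unique (h' z)

theorem HasDerivH.congr_deriv {F F' F'' : ℍ → ℂ} (h : HasDerivH F F') (h' : ∀ z, F' z = F'' z) :
    HasDerivH F F'' := fun z => h' z ▸ h z

/-- For `A` of positive determinant: `A • x - A • z = det A * (x - z) / (denom A x * denom A z)`. -/
theorem smul_sub_smul {A : GL (Fin 2) ℝ} (hA : 0 < A.det.val) (x z : ℍ) :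
    ((A • x : ℍ) : ℂ) - ((A • z : ℍ) : ℂ) =
      ((A.det.val : ℝ) : ℂ) * ((x : ℂ) - (z : ℂ)) / (denom A x * denom A z) := by
  rw [coe_smul_of_det_pos hA, coe_smul_of_det_pos hA]
  have hx : denom A x ≠ 0 := denom_ne_zero A x
  have hz : denom A z ≠ 0 := denom_ne_zero A z
  rw [div_sub_div _ _ hx hz]
  congr 1
  have hdet : ((A.det.val : ℝ) : ℂ) = (A 0 0 : ℂ) * (A 1 1 : ℂ) - (A 0 1 : ℂ) * (A 1 0 : ℂ) := by
    rw [Matrix.GeneralLinearGroup.val_det_apply, Matrix.det_fin_two]
    push_cast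
    ring
  rw [hdet]
  simp only [num, denom]
  ring

end Fermat.Agent.S22
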