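/-
S22 support library: primitives (vanishing at `i∞`) of periodic holomorphic functions on `ℍ`
vanishing at `i∞`.
-/
import Fermat.Agent.S22.Basic

set_option autoImplicit false

open UpperHalfPlane Filter Function
open scoped MatrixGroups ModularForm Manifold Topology

namespace Fermat.Agent.S22

/-- Holomorphic, `h`-periodic and zero at `i∞`. -/
structure CuspPer (h : ℝ) (g : ℍ → ℂ) : Prop where
  mdiff : MDiff g
  per : Function.Periodic (g ∘ ofComplex) h
  zero : IsZeroAtImInfty g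

theorem CuspPer.add {h : ℝ} {g₁ g₂ : ℍ → ℂ} (h₁ : CuspPer h g₁) (h₂ : CuspPer h g₂) :
    CuspPer h (g₁ + g₂) := by
  refine ⟨h₁.mdiff.add h₂.mdiff, ?_, ?_⟩
  · intro x
    have e₁ := h₁.per x
    have e₂ := h₂.per x
    simp only [comp_apply, Pi.add_apply] at e₁ e₂ ⊢
    rw [e₁, e₂]
  · exact Filter.ZeroAtFilter.add h₁.zero h₂.zero

theorem CuspPer.smul {h : ℝ} {g : ℍ → ℂ} (c : ℂ) (hg : CuspPer h g) :
    CuspPer h (c • g) := by
  refine ⟨hg.mdiff.const_smul c, ?_, ?_⟩
  · intro x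
    have e := hg.per x
    simp only [comp_apply, Pi.smul_apply] at e ⊢
    rw [e]
  · exact Filter.ZeroAtFilter.smul c hg.zero

theorem CuspPer.zero_fun (h : ℝ) : CuspPer h (0 : ℍ → ℂ) := by
  refine ⟨?_, ?_, ?_⟩
  · exact mdifferentiable_const
  · intro x
    simp
  · exact Filter.zero_zeroAtFilter _

/-- The derivative of the `q`-parameter. -/
theorem hasDerivAt_qParam_aux (h : ℝ) (w : ℂ) :
    HasDerivAt (Function.Periodic.qParam h)
      (Function.Periodic.qParam h w * (2 * Real.pi * Complex.I / h)) w := by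
  unfold Function.Periodic.qParam
  have h1 : HasDerivAt (fun z : ℂ => 2 * Real.pi * Complex.I * z / h)
      (2 * Real.pi * Complex.I / h) w := by
    have := ((hasDerivAt_id w).const_mul (2 * Real.pi * Complex.I)).div_const (h : ℂ)
    simpa using this
  exact HasDerivAt.cexp h1

/-- Existence of a primitive vanishing at `i∞` (via `cuspFunction`, `dslope` and
`DifferentiableOn.isExactOn_ball`). -/
theorem exists_prim {h : ℝ} (hh : 0 < h) {g : ℍ → ℂ} (hg : CuspPer h g) :
    ∃ G : ℍ → ℂ, HasDerivH G g ∧ CuspPer h G := by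
  have hbdd : IsBoundedAtImInfty g := Filter.ZeroAtFilter.boundedAtFilter hg.zero
  set φ : ℂ → ℂ := cuspFunction h g with hφ
  have hφdiff : DifferentiableOn ℂ φ (Metric.ball 0 1) :=
    differentiableOn_cuspFunction_ball hh hg.per hg.mdiff hbdd
  have hφ0 : φ 0 = 0 := IsZeroAtImInfty.cuspFunction_apply_zero hg.zero hh
  have hball : Metric.ball (0 : ℂ) 1 ∈ 𝓝 (0 : ℂ) := Metric.ball_mem_nhds 0 one_pos
  set ψ : ℂ → ℂ := dslope φ 0 with hψ
  have hψdiff : DifferentiableOn ℂ ψ (Metric.ball 0 1) :=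
    (Complex.differentiableOn_dslope hball).mpr hφdiff
  have hψmul : ∀ q : ℂ, q * ψ q = φ q := by
    intro q
    have := sub_smul_dslope φ 0 q
    simpa [hφ0, smul_eq_mul] using this
  obtain ⟨Ψ, hΨ0, hΨ⟩ := hψdiff.isExactOn_ball.with_val_at 0 0
  have hhC : (h : ℂ) ≠ 0 := by exact_mod_cast hh.ne'
  have h2pi : (2 * Real.pi * Complex.I : ℂ) ≠ 0 := Complex.two_pi_I_ne_zero
  set c : ℂ := h / (2 * Real.pi * Complex.I) with hc
  set G : ℍ → ℂ := fun τ => c * Ψ (Function.Periodic.qParam h τ) with hG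
  have hqball : ∀ w : ℂ, 0 < w.im → Function.Periodic.qParam h w ∈ Metric.ball (0 : ℂ) 1 := by
    intro w hw
    rw [mem_ball_zero_iff]
    exact Function.Periodic.norm_qParam_lt_one hh hw
  have hderiv : HasDerivH G g := by
    intro z
    have hz : 0 < (z : ℂ).im := z.im_pos
    have hcomp : HasDerivAt (fun w : ℂ => c * Ψ (Function.Periodic.qParam h w))
        (c * (ψ (Function.Periodic.qParam h z) *
          (Function.Periodic.qParam h z * (2 * Real.pi * Complex.I / h)))) (z : ℂ) := by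
      have h1 := hΨ _ (hqball _ hz)
      have h2 := hasDerivAt_qParam_aux h (z : ℂ)
      exact (HasDerivAt.comp (z : ℂ) h1 h2).const_mul c
    have hval : c * (ψ (Function.Periodic.qParam h z) *
          (Function.Periodic.qParam h z * (2 * Real.pi * Complex.I / h))) = g z := by
      have e1 : φ (Function.Periodic.qParam h z) = g z := eq_cuspFunction z hh.ne' hg.per
      have e2 := hψmul (Function.Periodic.qParam h z)
      rw [← e1, ← e2, hc]
      field_simp
    rw [hval] at hcomp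
    refine hcomp.congr_of_eventuallyEq ?_
    have hopen : IsOpen {w : ℂ | 0 < w.im} := isOpen_lt continuous_const Complex.continuous_im
    filter_upwards [hopen.mem_nhds hz] with w hw
    simp only [comp_apply, hG, ofComplex_apply_of_im_pos hw]
  refine ⟨G, hderiv, hderiv.mdiff, ?_, ?_⟩
  · intro x
    simp only [comp_apply, hG]
    by_cases hx : 0 < x.im
    · have hx' : 0 < (x + (h : ℂ)).im := by simpa using hx
      rw [ofComplex_apply_of_im_pos hx, ofComplex_apply_of_im_pos hx']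
      congr 2
      show Function.Periodic.qParam h (x + h) = Function.Periodic.qParam h x
      unfold Function.Periodic.qParam
      have : 2 * (Real.pi : ℂ) * Complex.I * (x + h) / h
          = 2 * Real.pi * Complex.I * x / h + 2 * Real.pi * Complex.I := by
        field_simp
      rw [this, Complex.exp_add, Complex.exp_two_pi_mul_I, mul_one]
    · have hx1 : x.im ≤ 0 := not_lt.mp hx
      have hx2 : (x + (h : ℂ)).im ≤ 0 := by simpa using hx1
      rw [ofComplex_apply_eq_of_im_nonpos hx2 hx1]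
  · have hcont : ContinuousAt Ψ 0 := (hΨ 0 (Metric.mem_ball_self one_pos)).continuousAt
    have ht : Tendsto (fun τ : ℍ => Ψ (Function.Periodic.qParam h τ)) atImInfty (𝓝 (Ψ 0)) :=
      hcont.tendsto.comp (qParam_tendsto_atImInfty hh)
    have ht2 := ht.const_mul c
    rw [hΨ0, mul_zero] at ht2
    exact ht2

/-- Uniqueness of the primitive vanishing at `i∞`. -/
theorem prim_unique {g G₁ G₂ : ℍ → ℂ} (h₁ : HasDerivH G₁ g) (h₂ : HasDerivH G₂ g)
    (z₁ : IsZeroAtImInfty G₁) (z₂ : IsZeroAtImInfty G₂) : G₁ = G₂ := by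
  obtain ⟨c, hc⟩ := h₁.eq_add_const h₂
  have hsub : Tendsto (fun z => G₁ z - G₂ z) atImInfty (𝓝 (0 - 0)) := Tendsto.sub z₁ z₂
  have hconst : (fun z => G₁ z - G₂ z) = fun _ => c := by
    funext z
    rw [hc z]
    ring
  rw [hconst, sub_zero] at hsub
  have hc0 : c = 0 := tendsto_nhds_unique tendsto_const_nhds hsub
  funext z
  rw [hc z, hc0, add_zero]

open Classical in
/-- The primitive of `g` vanishing at `i∞` (junk value `0` if it does not exist). -/
noncomputable def prim (g : ℍ → ℂ) : ℍ → ℂ :=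
  if H : ∃ G : ℍ → ℂ, HasDerivH G g ∧ IsZeroAtImInfty G then H.choose else 0

theorem prim_eq {g G : ℍ → ℂ} (h₁ : HasDerivH G g) (z₁ : IsZeroAtImInfty G) : prim g = G := by
  have H : ∃ G : ℍ → ℂ, HasDerivH G g ∧ IsZeroAtImInfty G := ⟨G, h₁, z₁⟩
  unfold prim
  rw [dif_pos H]
  exact prim_unique H.choose_spec.1 h₁ H.choose_spec.2 z₁

theorem prim_spec {h : ℝ} (hh : 0 < h) {g : ℍ → ℂ} (hg : CuspPer h g) :
    HasDerivH (prim g) g ∧ CuspPer h (prim g) := by
  obtain ⟨G, hG, hGc⟩ := exists_prim hh hg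
  rw [prim_eq hG hGc.zero]
  exact ⟨hG, hGc⟩

theorem prim_add {h : ℝ} (hh : 0 < h) {g₁ g₂ : ℍ → ℂ} (h₁ : CuspPer h g₁) (h₂ : CuspPer h g₂) :
    prim (g₁ + g₂) = prim g₁ + prim g₂ := by
  obtain ⟨d₁, c₁⟩ := prim_spec hh h₁
  obtain ⟨d₂, c₂⟩ := prim_spec hh h₂
  exact prim_eq (d₁.add d₂) (c₁.add c₂).zero

theorem prim_smul {h : ℝ} (hh : 0 < h) (c : ℂ) {g : ℍ → ℂ} (hg : CuspPer h g) :
    prim (c • g) = c • prim g := by
  obtain ⟨d, cp⟩ := prim_spec hh hg
  exact prim_eq (d.const_mul c) (cp.smul c).zero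

/-- Iterated primitives: `iterPrim 0 g = g`, `iterPrim (n+1) g = prim (iterPrim n g)`. -/
noncomputable def iterPrim : ℕ → (ℍ → ℂ) → (ℍ → ℂ)
  | 0, g => g
  | n + 1, g => prim (iterPrim n g)

@[simp] theorem iterPrim_zero (g : ℍ → ℂ) : iterPrim 0 g = g := rfl

theorem iterPrim_succ (n : ℕ) (g : ℍ → ℂ) : iterPrim (n + 1) g = prim (iterPrim n g) := rfl

theorem iterPrim_cuspPer {h : ℝ} (hh : 0 < h) {g : ℍ → ℂ} (hg : CuspPer h g) (n : ℕ) :
    CuspPer h (iterPrim n g) := by
  induction n with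
  | zero => exact hg
  | succ n ih => exact (prim_spec hh ih).2

theorem iterPrim_hasDerivH {h : ℝ} (hh : 0 < h) {g : ℍ → ℂ} (hg : CuspPer h g) (n : ℕ) :
    HasDerivH (iterPrim (n + 1) g) (iterPrim n g) :=
  (prim_spec hh (iterPrim_cuspPer hh hg n)).1

theorem iterPrim_add {h : ℝ} (hh : 0 < h) {g₁ g₂ : ℍ → ℂ} (h₁ : CuspPer h g₁)
    (h₂ : CuspPer h g₂) (n : ℕ) :
    iterPrim n (g₁ + g₂) = iterPrim n g₁ + iterPrim n g₂ := by
  induction n with
  | zero => rfl
  | succ n ih =>
    rw [iterPrim_succ, ih, prim_add hh (iterPrim_cuspPer hh h₁ n) (iterPrim_cuspPer hh h₂ n)]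
    rfl

theorem iterPrim_smul {h : ℝ} (hh : 0 < h) (c : ℂ) {g : ℍ → ℂ} (hg : CuspPer h g) (n : ℕ) :
    iterPrim n (c • g) = c • iterPrim n g := by
  induction n with
  | zero => rfl
  | succ n ih =>
    rw [iterPrim_succ, ih, prim_smul hh c (iterPrim_cuspPer hh hg n)]
    rfl

/-- If an iterated primitive vanishes identically then so does the function. -/
theorem eq_zero_of_iterPrim_eq_zero {h : ℝ} (hh : 0 < h) {g : ℍ → ℂ} (hg : CuspPer h g) (n : ℕ)
    (h0 : iterPrim n g = 0) : g = 0 := by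
  induction n with
  | zero => exact h0
  | succ n ih =>
    apply ih
    have hd := iterPrim_hasDerivH hh hg n
    rw [h0] at hd
    have hz : HasDerivH (0 : ℍ → ℂ) (fun _ => (0 : ℂ)) := hasDerivH_const 0
    exact hd.unique hz

end Fermat.Agent.S22
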