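/-
S22 support library: cusp forms on `Γ₀(N)` as `CuspPer` functions.
-/
import Fermat.Agent.S22.Prim
import Fermat.Prelude.Def_CuspForm_HeckeAlgebra
import Fermat.Prelude.Thm_CongruenceSubgroup_one_mem_strictPeriods_Gamma0

set_option autoImplicit false

open UpperHalfPlane Filter Function
open scoped MatrixGroups ModularForm Manifold Topology

namespace Fermat.Agent.S22

theorem det_mapGL_pos (γ : SL(2, ℤ)) :
    0 < (Matrix.SpecialLinearGroup.mapGL ℝ γ : GL (Fin 2) ℝ).det.val := by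
  simp

theorem mapGL_int_entries (γ : SL(2, ℤ)) (i j : Fin 2) :
    ∃ n : ℤ, (Matrix.SpecialLinearGroup.mapGL ℝ γ : GL (Fin 2) ℝ) i j = (n : ℝ) :=
  ⟨γ i j, by simp⟩

/-- A cusp form on `Γ₀(N)` is holomorphic, `1`-periodic and zero at `i∞`. -/
theorem cuspForm_cuspPer {N : ℕ} [NeZero N] {k : ℤ}
    (f : CuspForm (CongruenceSubgroup.Gamma0 N) k) : CuspPer 1 (f : ℍ → ℂ) where
  mdiff := CuspFormClass.holo f
  per := SlashInvariantFormClass.periodic_comp_ofComplex f
    (CongruenceSubgroup.one_mem_strictPeriods_Gamma0 N)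
  zero := CuspFormClass.zero_at_infty f

/-- Slash invariance of a cusp form on `Γ₀(N)`, in terms of `mapGL`. -/
theorem cuspForm_slash_mapGL {N : ℕ} [NeZero N] {k : ℤ}
    (f : CuspForm (CongruenceSubgroup.Gamma0 N) k) {γ : SL(2, ℤ)}
    (hγ : γ ∈ CongruenceSubgroup.Gamma0 N) :
    (f : ℍ → ℂ) ∣[k] (Matrix.SpecialLinearGroup.mapGL ℝ γ : GL (Fin 2) ℝ) = f :=
  SlashInvariantFormClass.slash_action_eq f _ (Subgroup.mem_map_of_mem _ hγ)

/-- Conjugates of `T ^ N` lie in `Γ₀(N)`. -/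
theorem formsAux_conj_T_pow_mem_Gamma0 (N : ℕ) (δ : SL(2, ℤ)) :
    δ * ModularGroup.T ^ (N : ℤ) * δ⁻¹ ∈ CongruenceSubgroup.Gamma0 N := by
  have h1 : ModularGroup.T ^ (N : ℤ) ∈ CongruenceSubgroup.Gamma N := by
    simpa using CongruenceSubgroup.ModularGroup_T_pow_mem_Gamma (N : ℤ) (N : ℤ) dvd_rfl
  have h2 : δ * ModularGroup.T ^ (N : ℤ) * δ⁻¹ ∈ CongruenceSubgroup.Gamma N :=
    (CongruenceSubgroup.Gamma_normal N).conj_mem _ h1 δ
  rw [CongruenceSubgroup.Gamma_mem] at h2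
  rw [CongruenceSubgroup.Gamma0_mem]
  exact h2.2.2.1

open scoped Pointwise in
/-- Every `SL(2, ℤ)`-translate of a cusp form on `Γ₀(N)` is holomorphic, `N`-periodic and zero
at `i∞`. -/
theorem cuspForm_slash_cuspPer {N : ℕ} [NeZero N] {k : ℤ}
    (f : CuspForm (CongruenceSubgroup.Gamma0 N) k) (δ : SL(2, ℤ)) :
    CuspPer (N : ℝ) ((f : ℍ → ℂ) ∣[k] (Matrix.SpecialLinearGroup.mapGL ℝ δ : GL (Fin 2) ℝ)) where
  mdiff := (CuspFormClass.holo f).slash k _
  per := by
    have hmem : (N : ℝ) ∈ (ConjAct.toConjAct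
        (Matrix.SpecialLinearGroup.mapGL ℝ δ : GL (Fin 2) ℝ)⁻¹ •
          (CongruenceSubgroup.Gamma0 N : Subgroup (GL (Fin 2) ℝ))).strictPeriods := by
      rw [Subgroup.mem_strictPeriods_iff, Subgroup.mem_pointwise_smul_iff_inv_smul_mem,
        ConjAct.smul_def]
      refine ⟨δ * ModularGroup.T ^ (N : ℤ) * δ⁻¹, formsAux_conj_T_pow_mem_Gamma0 N δ, ?_⟩
      have hT : ∀ m : ℤ, (Matrix.SpecialLinearGroup.mapGL ℝ (ModularGroup.T ^ m) : GL (Fin 2) ℝ) =
          Matrix.GeneralLinearGroup.upperRightHom (m : ℝ) := by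
        intro m
        apply Units.ext
        rw [Matrix.SpecialLinearGroup.mapGL_coe_matrix]
        ext i j
        rw [Matrix.SpecialLinearGroup.map_apply_coe, ModularGroup.coe_T_zpow]
        fin_cases i <;> fin_cases j <;> simp
      have hT' := hT (N : ℤ)
      rw [Int.cast_natCast] at hT'
      rw [map_mul, map_mul, hT', map_inv]
      simp
    exact SlashInvariantFormClass.periodic_comp_ofComplex
      (CuspForm.translate f (Matrix.SpecialLinearGroup.mapGL ℝ δ : GL (Fin 2) ℝ)) hmem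
  zero := CuspFormClass.zero_at_infty_slash f δ

end Fermat.Agent.S22
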