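/-
S22 support library: the weight `w` action of real 2x2 matrices on polynomials of degree `≤ w`.
-/
import Fermat.Agent.S22.Basic

set_option autoImplicit false

open UpperHalfPlane Filter Function Polynomial
open scoped MatrixGroups ModularForm Manifold Topology

namespace Fermat.Agent.S22

/-- The linear factor `a X + b` as a complex polynomial. -/
noncomputable def linPoly (a b : ℝ) : ℂ[X] := C (a : ℂ) * X + C (b : ℂ)

/-- `polyAct w A P = ∑_{l ≤ w} P_l (aX+b)^l (cX+d)^(w-l)` for `A = [[a,b],[c,d]]`; on polynomials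
of degree `≤ w` this is `(cX+d)^w P((aX+b)/(cX+d))`. -/
noncomputable def polyAct (w : ℕ) (A : GL (Fin 2) ℝ) : ℂ[X] →ₗ[ℂ] ℂ[X] where
  toFun P := ∑ l ∈ Finset.range (w + 1),
    C (P.coeff l) * linPoly (A 0 0) (A 0 1) ^ l * linPoly (A 1 0) (A 1 1) ^ (w - l)
  map_add' P Q := by
    simp only [coeff_add, C_add, add_mul, Finset.sum_add_distrib]
  map_smul' c P := by
    simp only [RingHom.id_apply, Finset.smul_sum]
    refine Finset.sum_congr rfl fun l _ => ?_
    rw [coeff_smul, smul_eq_mul, C_mul, Polynomial.smul_eq_C_mul]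
    ring

theorem polyAct_apply (w : ℕ) (A : GL (Fin 2) ℝ) (P : ℂ[X]) :
    polyAct w A P = ∑ l ∈ Finset.range (w + 1),
      C (P.coeff l) * linPoly (A 0 0) (A 0 1) ^ l * linPoly (A 1 0) (A 1 1) ^ (w - l) := rfl

theorem natDegree_linPoly_le (a b : ℝ) : (linPoly a b).natDegree ≤ 1 := by
  unfold linPoly
  exact natDegree_linear_le

theorem eval_linPoly (a b : ℝ) (x : ℂ) : (linPoly a b).eval x = (a : ℂ) * x + (b : ℂ) := by
  simp [linPoly]

theorem natDegree_polyAct_le (w : ℕ) (A : GL (Fin 2) ℝ) (P : ℂ[X]) :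
    (polyAct w A P).natDegree ≤ w := by
  rw [polyAct_apply]
  refine natDegree_sum_le_of_forall_le _ _ fun l hl => ?_
  have hl' : l ≤ w := Nat.lt_succ_iff.mp (Finset.mem_range.mp hl)
  calc (C (P.coeff l) * linPoly (A 0 0) (A 0 1) ^ l * linPoly (A 1 0) (A 1 1) ^ (w - l)).natDegree
      ≤ (C (P.coeff l) * linPoly (A 0 0) (A 0 1) ^ l).natDegree
          + (linPoly (A 1 0) (A 1 1) ^ (w - l)).natDegree := natDegree_mul_le
    _ ≤ ((C (P.coeff l)).natDegree + (linPoly (A 0 0) (A 0 1) ^ l).natDegree)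
          + (linPoly (A 1 0) (A 1 1) ^ (w - l)).natDegree :=
        Nat.add_le_add_right natDegree_mul_le _
    _ ≤ (0 + l * 1) + (w - l) * 1 := by
        refine Nat.add_le_add (Nat.add_le_add (by simp) ?_) ?_
        · exact natDegree_pow_le_of_le l (natDegree_linPoly_le _ _)
        · exact natDegree_pow_le_of_le (w - l) (natDegree_linPoly_le _ _)
    _ = w := by omega

/-- Evaluation of `polyAct` at an arbitrary complex point, without hypotheses. -/
theorem eval_polyAct_aux (w : ℕ) (A : GL (Fin 2) ℝ) (P : ℂ[X]) (x : ℂ) :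
    (polyAct w A P).eval x = ∑ l ∈ Finset.range (w + 1),
      P.coeff l * num A x ^ l * denom A x ^ (w - l) := by
  rw [polyAct_apply, eval_finsetSum]
  refine Finset.sum_congr rfl fun l _ => ?_
  simp only [eval_mul, eval_C, eval_pow, eval_linPoly, num, denom]

/-- Evaluation of `polyAct` at a point of the upper half plane. -/
theorem eval_polyAct {w : ℕ} {A : GL (Fin 2) ℝ} (hA : 0 < A.det.val) {P : ℂ[X]}
    (hP : P.natDegree ≤ w) (x : ℍ) :
    (polyAct w A P).eval (x : ℂ) = denom A x ^ w * P.eval ((A • x : ℍ) : ℂ) := by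
  have hd : denom A x ≠ 0 := denom_ne_zero A x
  rw [eval_polyAct_aux, coe_smul_of_det_pos hA, eval_eq_sum_range' (Nat.lt_succ_of_le hP),
    Finset.mul_sum]
  refine Finset.sum_congr rfl fun l hl => ?_
  have hl' : l ≤ w := Nat.lt_succ_iff.mp (Finset.mem_range.mp hl)
  have hw : denom A (x : ℂ) ^ w = denom A (x : ℂ) ^ (w - l) * denom A (x : ℂ) ^ l := by
    rw [← pow_add, Nat.sub_add_cancel hl']
  rw [hw, div_pow]
  field_simp

/-- A polynomial is determined by its values on the upper half plane. -/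
theorem poly_eq_of_eval_eq {P Q : ℂ[X]} (h : ∀ x : ℍ, P.eval (x : ℂ) = Q.eval (x : ℂ)) : P = Q := by
  refine eq_of_infinite_eval_eq P Q ?_
  have hinj : Function.Injective (fun n : ℕ => (n : ℂ) + Complex.I) := by
    intro m n hmn
    have : (m : ℂ) = (n : ℂ) := add_right_cancel hmn
    exact_mod_cast this
  refine Set.infinite_of_injective_forall_mem hinj fun n => ?_
  have him : 0 < ((n : ℂ) + Complex.I).im := by simp
  exact h ⟨(n : ℂ) + Complex.I, him⟩

theorem polyAct_mul {w : ℕ} {A B : GL (Fin 2) ℝ} (hA : 0 < A.det.val) (hB : 0 < B.det.val)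
    {P : ℂ[X]} (hP : P.natDegree ≤ w) :
    polyAct w B (polyAct w A P) = polyAct w (A * B) P := by
  have hAB : 0 < (A * B).det.val := by
    rw [map_mul, Units.val_mul]
    exact mul_pos hA hB
  refine poly_eq_of_eval_eq fun x => ?_
  rw [eval_polyAct hB (natDegree_polyAct_le w A P), eval_polyAct hA hP, eval_polyAct hAB hP,
    mul_smul, denom_cocycle A B x.im_ne_zero, ← coe_smul_of_det_pos hB, mul_pow]
  ring

theorem polyAct_one {w : ℕ} {P : ℂ[X]} (hP : P.natDegree ≤ w) : polyAct w 1 P = P := by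
  refine poly_eq_of_eval_eq fun x => ?_
  have h1 : 0 < (1 : GL (Fin 2) ℝ).det.val := by simp
  rw [eval_polyAct h1 hP, one_smul, denom_one, one_pow, one_mul]

/-- Integrality: for a matrix with integer entries the coefficients of `polyAct w A P` are
integer combinations (independent of `P`) of the coefficients of `P`. -/
theorem polyAct_coeff_int (w : ℕ) {A : GL (Fin 2) ℝ} (hA : ∀ i j, ∃ n : ℤ, A i j = (n : ℝ))
    (j : ℕ) :
    ∃ m : ℕ → ℤ, ∀ P : ℂ[X],
      (polyAct w A P).coeff j = ∑ l ∈ Finset.range (w + 1), (m l : ℂ) * P.coeff l := by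
  obtain ⟨a, ha⟩ := hA 0 0
  obtain ⟨b, hb⟩ := hA 0 1
  obtain ⟨c, hc⟩ := hA 1 0
  obtain ⟨d, hd⟩ := hA 1 1
  have key : ∀ (a b : ℤ), linPoly (a : ℝ) (b : ℝ) =
      (C a * X + C b : ℤ[X]).map (Int.castRingHom ℂ) := by
    intro a b
    simp [linPoly]
  refine ⟨fun l => ((C a * X + C b : ℤ[X]) ^ l * (C c * X + C d : ℤ[X]) ^ (w - l)).coeff j,
    fun P => ?_⟩
  rw [polyAct_apply, finsetSum_coeff]
  refine Finset.sum_congr rfl fun l _ => ?_
  rw [ha, hb, hc, hd, key, key, ← Polynomial.map_pow, ← Polynomial.map_pow, mul_assoc,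
    ← Polynomial.map_mul, coeff_C_mul, coeff_map, mul_comm]
  simp

/-- A polynomial tending to `0` at `i∞` is zero. -/
theorem poly_eq_zero_of_tendsto {P : ℂ[X]}
    (h : Tendsto (fun z : ℍ => P.eval (z : ℂ)) atImInfty (𝓝 0)) : P = 0 := by
  by_cases hd : 0 < P.degree
  · exfalso
    have hz : Tendsto (fun z : ℍ => ‖(z : ℂ)‖) atImInfty atTop := by
      have him : Tendsto (fun z : ℍ => z.im) atImInfty atTop := tendsto_comap
      refine tendsto_atTop_mono (fun z => ?_) him
      calc z.im = (z : ℂ).im := rfl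
        _ ≤ |(z : ℂ).im| := le_abs_self _
        _ ≤ ‖(z : ℂ)‖ := Complex.abs_im_le_norm _
    have h1 : Tendsto (fun z : ℍ => ‖P.eval (z : ℂ)‖) atImInfty atTop :=
      P.tendsto_norm_atTop hd hz
    have h2 : Tendsto (fun z : ℍ => ‖P.eval (z : ℂ)‖) atImInfty (𝓝 0) := by
      simpa using h.norm
    exact not_tendsto_nhds_of_tendsto_atTop h1 _ h2
  · have hC : P = C (P.coeff 0) := eq_C_of_degree_le_zero (not_lt.mp hd)
    rw [hC] at h ⊢
    simp only [eval_C] at h
    have : P.coeff 0 = 0 := tendsto_nhds_unique tendsto_const_nhds h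
    rw [this, C_0]

/-- A polynomial which is periodic on the upper half plane is constant. -/
theorem poly_eq_C_of_periodic {P : ℂ[X]} {h : ℝ} (hh : h ≠ 0)
    (hP : ∀ x : ℍ, P.eval ((x : ℂ) + (h : ℂ)) = P.eval (x : ℂ)) : P = C (P.coeff 0) := by
  have hval : ∀ n : ℕ, P.eval (Complex.I + (n : ℂ) * (h : ℂ)) = P.eval Complex.I := by
    intro n
    induction n with
    | zero => simp
    | succ n ih =>
      have him : 0 < (Complex.I + (n : ℂ) * (h : ℂ)).im := by simp
      have := hP ⟨Complex.I + (n : ℂ) * (h : ℂ), him⟩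
      rw [← ih, ← this]
      congr 1
      push_cast
      ring
  have hPC : P = C (P.eval Complex.I) := by
    refine eq_of_infinite_eval_eq P _ ?_
    have hinj : Function.Injective (fun n : ℕ => Complex.I + (n : ℂ) * (h : ℂ)) := by
      intro m n hmn
      have h1 : (m : ℂ) * (h : ℂ) = (n : ℂ) * (h : ℂ) := add_left_cancel hmn
      have h2 : (m : ℂ) = (n : ℂ) :=
        mul_right_cancel₀ (by exact_mod_cast hh : (h : ℂ) ≠ 0) h1
      exact_mod_cast h2
    refine Set.infinite_of_injective_forall_mem hinj fun n => ?_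
    simp only [Set.mem_ofPred_eq, eval_C]
    exact hval n
  have h0 : P.coeff 0 = P.eval Complex.I := by
    conv_lhs => rw [hPC]
    simp
  rw [h0]
  exact hPC

end Fermat.Agent.S22
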