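/-
S22 support library: the Eichler kernel `K_g(z) = ∑_j (w!/j!) E_{w+1-j}(z) (X - z)^j`.
-/
import Fermat.Agent.S22.Prim
import Fermat.Agent.S22.Poly

set_option autoImplicit false

open UpperHalfPlane Filter Function Polynomial
open scoped MatrixGroups ModularForm Manifold Topology

namespace Fermat.Agent.S22


noncomputable def kerFun (w : ℕ) (g : ℍ → ℂ) (z : ℍ) (x : ℂ) : ℂ :=
  ∑ j ∈ Finset.range (w + 1),
    ((w.factorial : ℂ) / (j.factorial : ℂ)) * (x - (z : ℂ)) ^ j * iterPrim (w + 1 - j) g z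

noncomputable def kerPoly (w : ℕ) (g : ℍ → ℂ) (z : ℍ) : ℂ[X] :=
  ∑ j ∈ Finset.range (w + 1),
    C (((w.factorial : ℂ) / (j.factorial : ℂ)) * iterPrim (w + 1 - j) g z) * (X - C (z : ℂ)) ^ j

theorem eval_kerPoly (w : ℕ) (g : ℍ → ℂ) (z : ℍ) (x : ℂ) :
    (kerPoly w g z).eval x = kerFun w g z x := by
  simp only [kerPoly, kerFun, eval_finsetSum, eval_mul, eval_C, eval_pow, eval_sub, eval_X]
  refine Finset.sum_congr rfl fun j _ => ?_
  ring

theorem natDegree_kerPoly_le (w : ℕ) (g : ℍ → ℂ) (z : ℍ) : (kerPoly w g z).natDegree ≤ w := by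
  refine natDegree_sum_le_of_forall_le _ _ fun j hj => ?_
  have hj' : j ≤ w := Nat.lt_succ_iff.mp (Finset.mem_range.mp hj)
  refine (natDegree_C_mul_le _ _).trans ?_
  refine (natDegree_pow_le).trans ?_
  have : (X - C (z : ℂ)).natDegree ≤ 1 := (natDegree_X_sub_C_le _)
  calc j * (X - C (z : ℂ)).natDegree ≤ j * 1 := Nat.mul_le_mul_left _ this
    _ ≤ w := by simpa using hj'

theorem kerFun_self (w : ℕ) (g : ℍ → ℂ) (z : ℍ) :
    kerFun w g z (z : ℂ) = (w.factorial : ℂ) * iterPrim (w + 1) g z := by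
  unfold kerFun
  rw [Finset.sum_eq_single 0]
  · simp
  · intro j _ hj
    simp [hj]
  · intro h
    simp at h


/-- telescoping identity behind `kerFun_hasDerivH` -/
theorem kerFun_telescope (w : ℕ) (E : ℕ → ℂ) (u : ℂ) :
    ∑ j ∈ Finset.range (w + 1), ((w.factorial : ℂ) / (j.factorial : ℂ)) *
      (-((j : ℂ) * u ^ (j - 1)) * E (w + 1 - j) + u ^ j * E (w - j)) = E 0 * u ^ w := by
  have hfac : ∀ j : ℕ, (j.factorial : ℂ) ≠ 0 := fun j => by exact_mod_cast j.factorial_ne_zero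
  have key : ∀ j ∈ Finset.range (w + 1), ((w.factorial : ℂ) / (j.factorial : ℂ)) *
      (-((j : ℂ) * u ^ (j - 1)) * E (w + 1 - j) + u ^ j * E (w - j)) =
      (w.factorial : ℂ) * (u ^ j * E (w - j) / (j.factorial : ℂ)) -
      (w.factorial : ℂ) * (if j = 0 then 0 else u ^ (j - 1) * E (w - (j - 1)) / ((j - 1).factorial : ℂ)) := by
    intro j hj
    have hj' : j ≤ w := Nat.lt_succ_iff.mp (Finset.mem_range.mp hj)
    rcases Nat.eq_zero_or_pos j with rfl | hpos
    · simp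
    · obtain ⟨i, rfl⟩ : ∃ i, j = i + 1 := ⟨j - 1, by omega⟩
      have h1 : w + 1 - (i + 1) = w - i := by omega
      have h2 : ((i + 1).factorial : ℂ) = ((i : ℂ) + 1) * (i.factorial : ℂ) := by
        rw [Nat.factorial_succ]; push_cast; ring
      have h3 : ((i : ℂ) + 1) ≠ 0 := by exact_mod_cast Nat.succ_ne_zero i
      simp only [Nat.add_sub_cancel, h1, Nat.succ_ne_zero, if_false, h2]
      have := hfac i
      push_cast
      field_simp
      ring
  rw [Finset.sum_congr rfl key, Finset.sum_sub_distrib, ← Finset.mul_sum, ← Finset.mul_sum,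
    ← mul_sub, Finset.sum_range_succ, Finset.sum_range_succ' (fun j => if j = 0 then 0 else
      u ^ (j - 1) * E (w - (j - 1)) / ((j - 1).factorial : ℂ))]
  simp only [Nat.succ_ne_zero, if_false, Nat.add_sub_cancel, if_true, add_zero, Nat.sub_self]
  have := hfac w
  field_simp
  ring

theorem kerFun_hasDerivH (w : ℕ) {h : ℝ} (hh : 0 < h) {g : ℍ → ℂ} (hg : CuspPer h g) (x : ℂ) :
    HasDerivH (fun z => kerFun w g z x) (fun z => g z * (x - (z : ℂ)) ^ w) := by
  have hterm : ∀ j ∈ Finset.range (w + 1),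
      HasDerivH (fun z : ℍ => ((w.factorial : ℂ) / (j.factorial : ℂ)) * (x - (z : ℂ)) ^ j *
        iterPrim (w + 1 - j) g z)
      (fun z : ℍ => ((w.factorial : ℂ) / (j.factorial : ℂ)) *
        (-((j : ℂ) * (x - (z : ℂ)) ^ (j - 1)) * iterPrim (w + 1 - j) g z +
          (x - (z : ℂ)) ^ j * iterPrim (w - j) g z)) := by
    intro j hj
    have hj' : j ≤ w := Nat.lt_succ_iff.mp (Finset.mem_range.mp hj)
    have h1 : HasDerivH (iterPrim (w + 1 - j) g) (iterPrim (w - j) g) := by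
      have := iterPrim_hasDerivH hh hg (w - j)
      rwa [show w - j + 1 = w + 1 - j by omega] at this
    have h2 := ((hasDerivH_sub_pow x j).mul h1).const_mul ((w.factorial : ℂ) / (j.factorial : ℂ))
    refine HasDerivH.congr_deriv (F' := _) ?_ (fun z => rfl)
    convert h2 using 2
    ring
  have hsum := HasDerivH.sum (Finset.range (w + 1)) hterm
  refine HasDerivH.congr_deriv hsum fun z => ?_
  have := kerFun_telescope w (fun n => iterPrim n g z) (x - (z : ℂ))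
  simpa using this




theorem kerPoly_add (w : ℕ) {h : ℝ} (hh : 0 < h) {g₁ g₂ : ℍ → ℂ} (h₁ : CuspPer h g₁)
    (h₂ : CuspPer h g₂) (z : ℍ) :
    kerPoly w (g₁ + g₂) z = kerPoly w g₁ z + kerPoly w g₂ z := by
  simp only [kerPoly, ← Finset.sum_add_distrib]
  refine Finset.sum_congr rfl fun j _ => ?_
  rw [iterPrim_add hh h₁ h₂, Pi.add_apply, mul_add, C_add, add_mul]

theorem kerPoly_smul (w : ℕ) {h : ℝ} (hh : 0 < h) (c : ℂ) {g : ℍ → ℂ} (hg : CuspPer h g)
    (z : ℍ) :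
    kerPoly w (c • g) z = c • kerPoly w g z := by
  simp only [kerPoly, Finset.smul_sum]
  refine Finset.sum_congr rfl fun j _ => ?_
  show C (((w.factorial : ℂ) / (j.factorial : ℂ)) * iterPrim (w + 1 - j) (c • g) z) *
    (X - C (z : ℂ)) ^ j = c • (C (((w.factorial : ℂ) / (j.factorial : ℂ)) * iterPrim (w + 1 - j) g z) *
    (X - C (z : ℂ)) ^ j)
  rw [iterPrim_smul hh c hg, Pi.smul_apply, smul_eq_mul, Polynomial.smul_eq_C_mul,
    mul_left_comm, C_mul, mul_assoc]

theorem kerPoly_slash_hasDerivH {w : ℕ} {k : ℤ} (hk : k = (w : ℤ) + 2) {h : ℝ} (hh : 0 < h)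
    {g : ℍ → ℂ} (hg : CuspPer h g) {A : GL (Fin 2) ℝ} (hA : 0 < A.det.val) (x : ℍ) :
    HasDerivH (fun z => (polyAct w A (kerPoly w g (A • z))).eval (x : ℂ))
      (fun z => (g ∣[k] A) z * ((x : ℂ) - (z : ℂ)) ^ w) := by
  have h1 : ∀ z : ℍ, (polyAct w A (kerPoly w g (A • z))).eval (x : ℂ) =
      denom A x ^ w * kerFun w g (A • z) ((A • x : ℍ) : ℂ) := by
    intro z
    rw [eval_polyAct hA (natDegree_kerPoly_le w g _) x, eval_kerPoly]
  have h2 := ((kerFun_hasDerivH w hh hg ((A • x : ℍ) : ℂ)).comp_smul hA).const_mul (denom A x ^ w)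
  have h3 : (fun z => (polyAct w A (kerPoly w g (A • z))).eval (x : ℂ)) =
      fun z => denom A x ^ w * kerFun w g (A • z) ((A • x : ℍ) : ℂ) := funext h1
  rw [h3]
  refine HasDerivH.congr_deriv h2 fun z => ?_
  have hdx : denom A x ≠ 0 := denom_ne_zero A x
  have hdz : denom A z ≠ 0 := denom_ne_zero A z
  have hdet : ((A.det.val : ℝ) : ℂ) ≠ 0 := by exact_mod_cast hA.ne'
  rw [smul_sub_smul hA x z, ModularForm.slash_apply]
  have hσ : σ A (g (A • z)) = g (A • z) := by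
    rw [σ, if_pos hA]; rfl
  have habs : |A.det.val| = A.det.val := abs_of_pos hA
  rw [hσ, habs, hk]
  have e1 : (((A.det.val : ℝ) : ℂ)) ^ ((w : ℤ) + 2 - 1) = ((A.det.val : ℝ) : ℂ) ^ (w + 1) := by
    rw [show (w : ℤ) + 2 - 1 = ((w + 1 : ℕ) : ℤ) by push_cast; ring, zpow_natCast]
  have e2 : denom A z ^ (-((w : ℤ) + 2)) = (denom A z ^ (w + 2))⁻¹ := by
    rw [show -((w : ℤ) + 2) = -(((w + 2 : ℕ)) : ℤ) by push_cast; ring, zpow_neg, zpow_natCast]
  rw [e1, e2, div_pow, mul_pow, mul_pow]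
  field_simp
  ring




theorem kerPoly_sum_slash {w : ℕ} {k : ℤ} (hk : k = (w : ℤ) + 2) {h h' : ℝ} (hh : 0 < h)
    (hh' : 0 < h') {g g' : ℍ → ℂ} (hg : CuspPer h g) (hg' : CuspPer h' g')
    {ι : Type*} (s : Finset ι) (A : ι → GL (Fin 2) ℝ) (hA : ∀ i ∈ s, 0 < (A i).det.val)
    (hsum : g' = ∑ i ∈ s, g ∣[k] A i) :
    ∃ C₀ : ℂ[X], C₀.natDegree ≤ w ∧
      ∀ z : ℍ, ∑ i ∈ s, polyAct w (A i) (kerPoly w g (A i • z)) = kerPoly w g' z + C₀ := by
  set D : ℍ → ℂ[X] := fun z =>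
    ∑ i ∈ s, polyAct w (A i) (kerPoly w g (A i • z)) - kerPoly w g' z with hD
  have hdeg : ∀ z, (D z).natDegree ≤ w := by
    intro z
    refine (natDegree_sub_le _ _).trans (max_le ?_ (natDegree_kerPoly_le w g' z))
    exact natDegree_sum_le_of_forall_le _ _ fun i _ => natDegree_polyAct_le w (A i) _
  have hconst : ∀ z, D z = D UpperHalfPlane.I := by
    intro z
    refine poly_eq_of_eval_eq fun x => ?_
    have h1 : HasDerivH (fun z => (D z).eval (x : ℂ)) (fun _ => 0) := by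
      have ha := HasDerivH.sum s (fun i hi => kerPoly_slash_hasDerivH hk hh hg (hA i hi) x)
      have hb := kerFun_hasDerivH w hh' hg' (x : ℂ)
      have hc := ha.sub hb
      have hfun : (fun z => (D z).eval (x : ℂ)) =
          (fun z => ∑ i ∈ s, (polyAct w (A i) (kerPoly w g (A i • z))).eval (x : ℂ)) -
            (fun z => kerFun w g' z (x : ℂ)) := by
        funext z
        simp [hD, eval_finsetSum, eval_kerPoly]
      rw [hfun]
      refine HasDerivH.congr_deriv hc fun z => ?_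
      simp only [Pi.sub_apply, hsum, Finset.sum_apply, Finset.sum_mul, sub_self]
    exact h1.const_of_zero z UpperHalfPlane.I
  refine ⟨D UpperHalfPlane.I, hdeg _, fun z => ?_⟩
  rw [← hconst z, hD]
  ring

theorem kerPoly_sum_slash_upper {w : ℕ} {k : ℤ} (hk : k = (w : ℤ) + 2) {h h' : ℝ} (hh : 0 < h)
    (hh' : 0 < h') {g g' : ℍ → ℂ} (hg : CuspPer h g) (hg' : CuspPer h' g')
    {ι : Type*} (s : Finset ι) (A : ι → GL (Fin 2) ℝ) (hA : ∀ i ∈ s, 0 < (A i).det.val)
    (hA0 : ∀ i ∈ s, (A i) 1 0 = 0)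
    (hsum : g' = ∑ i ∈ s, g ∣[k] A i) (z : ℍ) :
    ∑ i ∈ s, polyAct w (A i) (kerPoly w g (A i • z)) = kerPoly w g' z := by
  obtain ⟨C₀, -, hC₀⟩ := kerPoly_sum_slash hk hh hh' hg hg' s A hA hsum
  suffices h0 : C₀ = 0 by rw [hC₀ z, h0, add_zero]
  refine poly_eq_zero_of_tendsto ?_
  -- value of `C₀` on the diagonal
  have hval : ∀ z : ℍ, C₀.eval (z : ℂ) =
      ∑ i ∈ s, ((A i 1 1 : ℝ) : ℂ) ^ w * ((w.factorial : ℂ) * iterPrim (w + 1) g (A i • z)) -
        (w.factorial : ℂ) * iterPrim (w + 1) g' z := by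
    intro z
    have h1 : C₀ = ∑ i ∈ s, polyAct w (A i) (kerPoly w g (A i • z)) - kerPoly w g' z := by
      rw [hC₀ z]; ring
    rw [h1, eval_sub, eval_finsetSum, eval_kerPoly, kerFun_self]
    congr 1
    refine Finset.sum_congr rfl fun i hi => ?_
    rw [eval_polyAct (hA i hi) (natDegree_kerPoly_le w g _) z, eval_kerPoly, kerFun_self]
    congr 2
    simp [denom, hA0 i hi]
  have hlim : Tendsto (fun z : ℍ => ∑ i ∈ s, ((A i 1 1 : ℝ) : ℂ) ^ w *
      ((w.factorial : ℂ) * iterPrim (w + 1) g (A i • z)) -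
        (w.factorial : ℂ) * iterPrim (w + 1) g' z) atImInfty (𝓝 0) := by
    have hz : ∀ i ∈ s, Tendsto (fun z : ℍ => ((A i 1 1 : ℝ) : ℂ) ^ w *
        ((w.factorial : ℂ) * iterPrim (w + 1) g (A i • z))) atImInfty (𝓝 0) := by
      intro i hi
      have h1 : Tendsto (fun z : ℍ => iterPrim (w + 1) g (A i • z)) atImInfty (𝓝 0) :=
        (iterPrim_cuspPer hh hg (w + 1)).zero.comp (tendsto_smul_atImInfty (hA0 i hi))
      simpa using (h1.const_mul (w.factorial : ℂ)).const_mul (((A i 1 1 : ℝ) : ℂ) ^ w)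
    have h2 : Tendsto (fun z : ℍ => (w.factorial : ℂ) * iterPrim (w + 1) g' z) atImInfty (𝓝 0) := by
      simpa using (iterPrim_cuspPer hh' hg' (w + 1)).zero.const_mul (w.factorial : ℂ)
    have h3 := (tendsto_finsetSum s hz).sub h2
    simpa using h3
  exact hlim.congr fun z => (hval z).symm


end Fermat.Agent.S22
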