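/-
S22 support library: period polynomials and their cocycle / Hecke relations.
-/
import Fermat.Agent.S22.Kernel

set_option autoImplicit false

open UpperHalfPlane Filter Function Polynomial
open scoped MatrixGroups ModularForm Manifold Topology

namespace Fermat.Agent.S22

/-- The period polynomial of `f` along `A` (meaningful when `f ∣[w+2] A = f`), computed at the base
point `I`. -/
noncomputable def periodPoly (w : ℕ) (f : ℍ → ℂ) (A : GL (Fin 2) ℝ) : ℂ[X] :=
  polyAct w A (kerPoly w f (A • UpperHalfPlane.I)) - kerPoly w f UpperHalfPlane.I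

theorem natDegree_periodPoly_le (w : ℕ) (f : ℍ → ℂ) (A : GL (Fin 2) ℝ) :
    (periodPoly w f A).natDegree ≤ w := by
  have := Polynomial.natDegree_sub_le_of_le
    (natDegree_polyAct_le w A (kerPoly w f (A • UpperHalfPlane.I)))
    (natDegree_kerPoly_le w f UpperHalfPlane.I)
  rwa [max_self] at this

/-- The difference `K_f(A z) | A - K_f(z)` does not depend on `z` when `f ∣[k] A = f`. -/
theorem periodPoly_aux {w : ℕ} {k : ℤ} (hk : k = (w : ℤ) + 2) {h : ℝ} (hh : 0 < h)
    {f : ℍ → ℂ} (hf : CuspPer h f) {A : GL (Fin 2) ℝ} (hA : 0 < A.det.val)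
    (hfA : f ∣[k] A = f) (z z' : ℍ) :
    polyAct w A (kerPoly w f (A • z)) - kerPoly w f z =
      polyAct w A (kerPoly w f (A • z')) - kerPoly w f z' := by
  refine poly_eq_of_eval_eq fun x => ?_
  have h1 : HasDerivH (fun z => (polyAct w A (kerPoly w f (A • z))).eval (x : ℂ))
      (fun z => f z * ((x : ℂ) - (z : ℂ)) ^ w) := by
    have := kerPoly_slash_hasDerivH hk hh hf hA x
    rwa [hfA] at this
  have h2 : HasDerivH (fun z => (kerPoly w f z).eval (x : ℂ))
      (fun z => f z * ((x : ℂ) - (z : ℂ)) ^ w) := by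
    have := kerFun_hasDerivH w hh hf (x : ℂ)
    have e : (fun z => (kerPoly w f z).eval (x : ℂ)) = fun z => kerFun w f z (x : ℂ) :=
      funext fun z => eval_kerPoly w f z (x : ℂ)
    rwa [e]
  have h3 : HasDerivH
      (fun z => (polyAct w A (kerPoly w f (A • z))).eval (x : ℂ) - (kerPoly w f z).eval (x : ℂ))
      (fun _ => 0) := by
    have := h1.sub h2
    refine HasDerivH.congr_deriv this fun z => ?_
    simp
  have := h3.const_of_zero z z'
  simpa only [eval_sub] using this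

/-- Independence of the base point. -/
theorem periodPoly_spec {w : ℕ} {k : ℤ} (hk : k = (w : ℤ) + 2) {h : ℝ} (hh : 0 < h)
    {f : ℍ → ℂ} (hf : CuspPer h f) {A : GL (Fin 2) ℝ} (hA : 0 < A.det.val)
    (hfA : f ∣[k] A = f) (z : ℍ) :
    polyAct w A (kerPoly w f (A • z)) = kerPoly w f z + periodPoly w f A := by
  have := periodPoly_aux hk hh hf hA hfA z UpperHalfPlane.I
  rw [periodPoly, ← this]
  ring

/-- Cocycle relation. -/
theorem periodPoly_mul {w : ℕ} {k : ℤ} (hk : k = (w : ℤ) + 2) {h : ℝ} (hh : 0 < h)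
    {f : ℍ → ℂ} (hf : CuspPer h f) {A B : GL (Fin 2) ℝ} (hA : 0 < A.det.val)
    (hB : 0 < B.det.val) (hfA : f ∣[k] A = f) (hfB : f ∣[k] B = f) :
    periodPoly w f (A * B) = polyAct w B (periodPoly w f A) + periodPoly w f B := by
  have h1 : polyAct w (A * B) (kerPoly w f ((A * B) • UpperHalfPlane.I)) =
      polyAct w B (polyAct w A (kerPoly w f (A • (B • UpperHalfPlane.I)))) := by
    rw [polyAct_mul hA hB (natDegree_kerPoly_le w f _), mul_smul]
  have h2 := periodPoly_spec hk hh hf hA hfA (B • UpperHalfPlane.I)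
  have h3 : periodPoly w f B =
      polyAct w B (kerPoly w f (B • UpperHalfPlane.I)) - kerPoly w f UpperHalfPlane.I := rfl
  have h4 : periodPoly w f (A * B) =
      polyAct w (A * B) (kerPoly w f ((A * B) • UpperHalfPlane.I)) -
        kerPoly w f UpperHalfPlane.I := rfl
  rw [h4, h1, h2, map_add, h3]
  ring

theorem periodPoly_one {w : ℕ} {h : ℝ} (hh : 0 < h) {f : ℍ → ℂ} (hf : CuspPer h f) :
    periodPoly w f 1 = 0 := by
  rw [periodPoly, one_smul, polyAct_one (natDegree_kerPoly_le w f _), sub_self]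

theorem periodPoly_add (w : ℕ) {h : ℝ} (hh : 0 < h) {f₁ f₂ : ℍ → ℂ} (h₁ : CuspPer h f₁)
    (h₂ : CuspPer h f₂) (A : GL (Fin 2) ℝ) :
    periodPoly w (f₁ + f₂) A = periodPoly w f₁ A + periodPoly w f₂ A := by
  simp only [periodPoly, kerPoly_add w hh h₁ h₂, map_add]
  ring

theorem periodPoly_smul (w : ℕ) {h : ℝ} (hh : 0 < h) (c : ℂ) {f : ℍ → ℂ} (hf : CuspPer h f)
    (A : GL (Fin 2) ℝ) :
    periodPoly w (c • f) A = c • periodPoly w f A := by
  simp only [periodPoly, kerPoly_smul w hh c hf, map_smul, smul_sub]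

/-- Abstract Hecke formula: if `f' = ∑ i, f ∣[k] α i` with the `α i` upper triangular of positive
determinant, and `α i * γ = γ' i * α (σ i)` with `γ, γ' i` fixing `f`, then
`ρ_{f'}(γ) = ∑ i, ρ_f(γ' i) | α (σ i)`. -/
theorem periodPoly_hecke {w : ℕ} {k : ℤ} (hk : k = (w : ℤ) + 2) {h h' : ℝ} (hh : 0 < h)
    (hh' : 0 < h') {f f' : ℍ → ℂ} (hf : CuspPer h f) (hf' : CuspPer h' f')
    {ι : Type*} [Fintype ι] (α : ι → GL (Fin 2) ℝ) (hα : ∀ i, 0 < (α i).det.val)
    (hα0 : ∀ i, (α i) 1 0 = 0) (hsum : f' = ∑ i, f ∣[k] α i)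
    {γ : GL (Fin 2) ℝ} (hγ : 0 < γ.det.val) (hfγ : f ∣[k] γ = f) (hf'γ : f' ∣[k] γ = f')
    (γ' : ι → GL (Fin 2) ℝ) (hγ' : ∀ i, 0 < (γ' i).det.val) (hfγ' : ∀ i, f ∣[k] γ' i = f)
    (σ : Equiv.Perm ι) (hcomm : ∀ i, α i * γ = γ' i * α (σ i)) :
    periodPoly w f' γ = ∑ i, polyAct w (α (σ i)) (periodPoly w f (γ' i)) := by
  have key : ∀ z : ℍ, ∑ i, polyAct w (α i) (kerPoly w f (α i • z)) = kerPoly w f' z :=
    fun z => kerPoly_sum_slash_upper hk hh hh' hf hf' Finset.univ α (fun i _ => hα i)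
      (fun i _ => hα0 i) hsum z
  have step : ∀ i, polyAct w γ (polyAct w (α i) (kerPoly w f (α i • (γ • UpperHalfPlane.I)))) =
      polyAct w (α (σ i)) (kerPoly w f (α (σ i) • UpperHalfPlane.I)) +
        polyAct w (α (σ i)) (periodPoly w f (γ' i)) := by
    intro i
    rw [polyAct_mul (hα i) hγ (natDegree_kerPoly_le w f _), ← mul_smul, hcomm i, mul_smul,
      ← polyAct_mul (hγ' i) (hα (σ i)) (natDegree_kerPoly_le w f _),
      periodPoly_spec hk hh hf (hγ' i) (hfγ' i), map_add]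
  rw [periodPoly, ← key, ← key, map_sum]
  simp only [step, Finset.sum_add_distrib]
  rw [Equiv.sum_comp σ (fun i => polyAct w (α i) (kerPoly w f (α i • UpperHalfPlane.I)))]
  ring

end Fermat.Agent.S22
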