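/-
S22 support library: period polynomials of `T_p f` and `U_p f` on `Γ₀(N)`.
-/
import Fermat.Agent.S22.Period
import Fermat.Agent.S22.Forms
import Fermat.Prelude.Def_CuspForm_HeckeAlgebra

set_option autoImplicit false

open UpperHalfPlane Filter Function Polynomial
open scoped MatrixGroups ModularForm Manifold Topology

namespace Fermat.Agent.S22

/-- The Hecke representatives have integer entries. -/
theorem heckeMatrix_int_entries (p j : ℕ) (a b : Fin 2) :
    ∃ n : ℤ, (ModularForm.heckeMatrix p j : GL (Fin 2) ℝ) a b = (n : ℝ) := by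
  rcases eq_or_ne p 0 with rfl | hp
  · rw [ModularForm.heckeMatrix_zero]
    fin_cases a <;> fin_cases b
    · exact ⟨1, by simp⟩
    · exact ⟨0, by simp⟩
    · exact ⟨0, by simp⟩
    · exact ⟨1, by simp⟩
  · have h := ModularForm.val_heckeMatrix hp j
    fin_cases a <;> fin_cases b
    · exact ⟨1, by simp [h]⟩
    · exact ⟨(j : ℤ), by simp [h]⟩
    · exact ⟨0, by simp [h]⟩
    · exact ⟨(p : ℤ), by simp [h]⟩

theorem heckeDiagMatrix_int_entries (p : ℕ) (a b : Fin 2) :
    ∃ n : ℤ, (ModularForm.heckeDiagMatrix p : GL (Fin 2) ℝ) a b = (n : ℝ) := by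
  rcases eq_or_ne p 0 with rfl | hp
  · rw [ModularForm.heckeDiagMatrix_zero]
    fin_cases a <;> fin_cases b
    · exact ⟨1, by simp⟩
    · exact ⟨0, by simp⟩
    · exact ⟨0, by simp⟩
    · exact ⟨1, by simp⟩
  · have h := ModularForm.val_heckeDiagMatrix hp
    fin_cases a <;> fin_cases b
    · exact ⟨(p : ℤ), by simp [h]⟩
    · exact ⟨0, by simp [h]⟩
    · exact ⟨0, by simp [h]⟩
    · exact ⟨1, by simp [h]⟩

theorem heckeMatrix_apply_one_zero (p j : ℕ) :
    (ModularForm.heckeMatrix p j : GL (Fin 2) ℝ) 1 0 = 0 := by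
  rcases eq_or_ne p 0 with rfl | hp
  · rw [ModularForm.heckeMatrix_zero]; simp
  · simp [ModularForm.val_heckeMatrix hp j]

theorem heckeDiagMatrix_apply_one_zero (p : ℕ) :
    (ModularForm.heckeDiagMatrix p : GL (Fin 2) ℝ) 1 0 = 0 := by
  rcases eq_or_ne p 0 with rfl | hp
  · rw [ModularForm.heckeDiagMatrix_zero]; simp
  · simp [ModularForm.val_heckeDiagMatrix hp]

section heckeRepFacts

open P2MW.S_ModularForm_heckeT_slash_eq_self_of_mem_Gamma0.ModularForm.HeckeSlashInvariance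

theorem heckeRep_int_entries (p : ℕ) (x : OnePoint (ZMod p)) (a b : Fin 2) :
    ∃ n : ℤ, (heckeRep p x : GL (Fin 2) ℝ) a b = (n : ℝ) := by
  induction x using OnePoint.rec with
  | infty => exact heckeDiagMatrix_int_entries p a b
  | coe j => exact heckeMatrix_int_entries p j.val a b

theorem heckeRep_apply_one_zero (p : ℕ) (x : OnePoint (ZMod p)) :
    (heckeRep p x : GL (Fin 2) ℝ) 1 0 = 0 := by
  induction x using OnePoint.rec with
  | infty => exact heckeDiagMatrix_apply_one_zero p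
  | coe j => exact heckeMatrix_apply_one_zero p j.val

theorem det_heckeRep_pos (p : ℕ) (x : OnePoint (ZMod p)) :
    0 < (heckeRep p x : GL (Fin 2) ℝ).det.val := by
  induction x using OnePoint.rec with
  | infty => exact ModularForm.det_heckeDiagMatrix_pos p
  | coe j => exact ModularForm.det_heckeMatrix_pos p j.val

end heckeRepFacts

open P2MW.S_ModularForm_heckeT_slash_eq_self_of_mem_Gamma0.ModularForm.HeckeSlashInvariance in
/-- Period polynomials of `T_p f` (`p ∤ N`): integral combination of period polynomials of `f`,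
with data independent of `f`. Uses the coset lemma `heckeRep_mul` from the prelude `Sol` files. -/
theorem periodPoly_heckeT {N : ℕ} [NeZero N] {k : ℤ} {w : ℕ} (hk : k = (w : ℤ) + 2) {p : ℕ}
    (hp : p.Prime) (hpN : ¬ p ∣ N) {γ : SL(2, ℤ)} (hγ : γ ∈ CongruenceSubgroup.Gamma0 N) :
    ∃ (ι : Type) (_ : Fintype ι) (γ' : ι → SL(2, ℤ)) (β : ι → GL (Fin 2) ℝ),
      (∀ i, γ' i ∈ CongruenceSubgroup.Gamma0 N) ∧ (∀ i a b, ∃ n : ℤ, (β i) a b = (n : ℝ)) ∧
      ∀ f : CuspForm (CongruenceSubgroup.Gamma0 N) k,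
        periodPoly w (CuspForm.heckeTLin k hp hpN f)
            (Matrix.SpecialLinearGroup.mapGL ℝ γ : GL (Fin 2) ℝ) =
          ∑ i, polyAct w (β i)
            (periodPoly w f (Matrix.SpecialLinearGroup.mapGL ℝ (γ' i) : GL (Fin 2) ℝ)) := by
  have : Fact p.Prime := ⟨hp⟩
  have : NeZero p := ⟨hp.ne_zero⟩
  have hcN : (N : ℤ) ∣ γ 1 0 :=
    (ZMod.intCast_zmod_eq_zero_iff_dvd _ _).mp (CongruenceSubgroup.Gamma0_mem.mp hγ)
  choose g' hg'N hmul using fun x : OnePoint (ZMod p) => heckeRep_mul hpN γ hcN x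
  refine ⟨OnePoint (ZMod p), inferInstance, g',
    fun x => heckeRep p (redMatrix p γ • x), ?_, ?_, ?_⟩
  · intro x
    exact CongruenceSubgroup.Gamma0_mem.mpr
      ((ZMod.intCast_zmod_eq_zero_iff_dvd _ _).mpr (hg'N x))
  · intro x a b
    exact heckeRep_int_entries p _ a b
  · intro f
    have hmem : ∀ x, g' x ∈ CongruenceSubgroup.Gamma0 N := fun x =>
      CongruenceSubgroup.Gamma0_mem.mpr ((ZMod.intCast_zmod_eq_zero_iff_dvd _ _).mpr (hg'N x))
    exact periodPoly_hecke hk one_pos one_pos (cuspForm_cuspPer f)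
      (cuspForm_cuspPer (CuspForm.heckeTLin k hp hpN f)) (heckeRep p)
      (det_heckeRep_pos p) (heckeRep_apply_one_zero p)
      (by rw [CuspForm.coe_heckeTLin_apply]; exact heckeT_eq_sum_onePoint k _)
      (det_mapGL_pos γ) (cuspForm_slash_mapGL f hγ)
      (cuspForm_slash_mapGL (CuspForm.heckeTLin k hp hpN f) hγ)
      (fun x => (Matrix.SpecialLinearGroup.mapGL ℝ (g' x) : GL (Fin 2) ℝ))
      (fun x => det_mapGL_pos (g' x)) (fun x => cuspForm_slash_mapGL f (hmem x))
      (MulAction.toPerm (redMatrix p γ)) (fun x => hmul x)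

open P2MW.S_ModularForm_heckeT_slash_eq_self_of_mem_Gamma0.ModularForm.HeckeSlashInvariance in
/-- Period polynomials of `U_p f` (`p ∣ N`). Uses `heckeMatrix_mul_of_dvd` from the prelude. -/
theorem periodPoly_heckeU {N : ℕ} [NeZero N] {k : ℤ} {w : ℕ} (hk : k = (w : ℤ) + 2) {p : ℕ}
    (hpN : p ∣ N) {γ : SL(2, ℤ)} (hγ : γ ∈ CongruenceSubgroup.Gamma0 N) :
    ∃ (ι : Type) (_ : Fintype ι) (γ' : ι → SL(2, ℤ)) (β : ι → GL (Fin 2) ℝ),
      (∀ i, γ' i ∈ CongruenceSubgroup.Gamma0 N) ∧ (∀ i a b, ∃ n : ℤ, (β i) a b = (n : ℝ)) ∧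
      ∀ f : CuspForm (CongruenceSubgroup.Gamma0 N) k,
        periodPoly w (CuspForm.heckeULin k hpN f)
            (Matrix.SpecialLinearGroup.mapGL ℝ γ : GL (Fin 2) ℝ) =
          ∑ i, polyAct w (β i)
            (periodPoly w f (Matrix.SpecialLinearGroup.mapGL ℝ (γ' i) : GL (Fin 2) ℝ)) := by
  have : NeZero p := ⟨fun h0 => NeZero.ne N (Nat.eq_zero_of_zero_dvd (h0 ▸ hpN))⟩
  have hcN : (N : ℤ) ∣ γ 1 0 :=
    (ZMod.intCast_zmod_eq_zero_iff_dvd _ _).mp (CongruenceSubgroup.Gamma0_mem.mp hγ)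
  have hc : (p : ℤ) ∣ γ 1 0 := (Int.natCast_dvd_natCast.mpr hpN).trans hcN
  have hc0 : ((γ 1 0 : ℤ) : ZMod p) = 0 := (ZMod.intCast_zmod_eq_zero_iff_dvd _ _).mpr hc
  choose g' hg' hmul using fun x : ZMod p => heckeMatrix_mul_of_dvd γ hc x
  have hmem : ∀ x, g' x ∈ CongruenceSubgroup.Gamma0 N := fun x => by
    rw [CongruenceSubgroup.Gamma0_mem, hg' x]
    push_cast
    rw [CongruenceSubgroup.Gamma0_mem.mp hγ, mul_zero]
  refine ⟨ZMod p, inferInstance, g',
    fun x => ModularForm.heckeMatrix p (affinePerm γ hc0 x).val, hmem, ?_, ?_⟩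
  · intro x a b
    exact heckeMatrix_int_entries p _ a b
  · intro f
    exact periodPoly_hecke hk one_pos one_pos (cuspForm_cuspPer f)
      (cuspForm_cuspPer (CuspForm.heckeULin k hpN f)) (fun x : ZMod p => ModularForm.heckeMatrix p x.val)
      (fun x => ModularForm.det_heckeMatrix_pos p x.val) (fun x => heckeMatrix_apply_one_zero p x.val)
      (by rw [CuspForm.coe_heckeULin_apply]; exact heckeU_eq_sum_zmod k _)
      (det_mapGL_pos γ) (cuspForm_slash_mapGL f hγ)
      (cuspForm_slash_mapGL (CuspForm.heckeULin k hpN f) hγ)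
      (fun x => (Matrix.SpecialLinearGroup.mapGL ℝ (g' x) : GL (Fin 2) ℝ))
      (fun x => det_mapGL_pos (g' x)) (fun x => cuspForm_slash_mapGL f (hmem x))
      (affinePerm γ hc0) (fun x => hmul x)

end Fermat.Agent.S22
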