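import Mathlib
import Fermat.Prelude.Def_CuspForm_HeckeAlgebra
import Fermat.Prelude.Thm_ModularForm_sturm_bound_Gamma0
import Fermat.Prelude.Thm_CongruenceSubgroup_one_mem_strictPeriods_Gamma0

set_option autoImplicit false

open UpperHalfPlane ModularForm
open scoped MatrixGroups

namespace Fermat.Agent.S22

/-- Cusp forms of weight `k ≤ 0` on `Γ₀(N)` vanish (prelude Sturm bound). -/
theorem cuspForm_eq_zero_of_nonpos (N : ℕ) [NeZero N] {k : ℤ} (hk : k ≤ 0)
    (f : CuspForm (CongruenceSubgroup.Gamma0 N) k) : f = 0 := by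
  have hg : ModularFormClass.modularForm f = 0 :=
    ModularForm.sturm_bound_Gamma0 N (ModularFormClass.modularForm f) (by
      intro n hn
      have h0 : (k * ((CongruenceSubgroup.Gamma0 N).index : ℤ)).toNat = 0 := by
        apply Int.toNat_eq_zero.mpr
        exact mul_nonpos_of_nonpos_of_nonneg hk (Int.natCast_nonneg _)
      rw [h0] at hn
      have hn0 : n = 0 := by omega
      subst hn0
      exact CuspFormClass.qExpansion_coeff_zero f one_pos
        (CongruenceSubgroup.one_mem_strictPeriods_Gamma0 N))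
  ext z
  have := DFunLike.congr_fun hg z
  simpa using this

/-- Cusp forms of odd weight on `Γ₀(N)` vanish (since `-1 ∈ Γ₀(N)`). -/
theorem cuspForm_eq_zero_of_odd (N : ℕ) {k : ℤ} (hk : Odd k)
    (f : CuspForm (CongruenceSubgroup.Gamma0 N) k) : f = 0 := by
  have hmem : (-1 : GL (Fin 2) ℝ) ∈
      (CongruenceSubgroup.Gamma0 N : Subgroup (GL (Fin 2) ℝ)) := by
    refine ⟨-1, ?_, by ext i j; simp⟩
    show (-1 : SL(2, ℤ)) ∈ CongruenceSubgroup.Gamma0 N
    rw [CongruenceSubgroup.Gamma0_mem]
    simp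
  have hg : ModularFormClass.modularForm f = 0 :=
    ModularForm.eq_zero_of_neg_one_mem hmem hk _
  ext z
  have := DFunLike.congr_fun hg z
  simpa using this

theorem cuspForm_eq_zero_of_le_one (N : ℕ) [NeZero N] {k : ℤ} (hk : k ≤ 1)
    (f : CuspForm (CongruenceSubgroup.Gamma0 N) k) : f = 0 := by
  rcases hk.lt_or_eq with h | h
  · exact cuspForm_eq_zero_of_nonpos N (by omega) f
  · subst h
    exact cuspForm_eq_zero_of_odd N odd_one f

/-- If the space of cusp forms is trivial, the Hecke algebra is a finite `ℤ`-module. -/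
theorem finite_of_forall_eq_zero (N : ℕ) [NeZero N] (k : ℤ) (S : Set ℕ)
    (h : ∀ f : CuspForm (CongruenceSubgroup.Gamma0 N) k, f = 0) :
    Module.Finite ℤ (CuspForm.heckeAlgebra N k S) := by
  have hsub : Subsingleton (CuspForm (CongruenceSubgroup.Gamma0 N) k) :=
    ⟨fun a b => (h a).trans (h b).symm⟩
  have hsub' : Subsingleton (Module.End ℂ (CuspForm (CongruenceSubgroup.Gamma0 N) k)) :=
    ⟨fun a b => LinearMap.ext fun x => Subsingleton.elim _ _⟩
  have hsub'' : Subsingleton (CuspForm.heckeAlgebra N k S) :=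
    ⟨fun a b => Subtype.ext (Subsingleton.elim _ _)⟩
  infer_instance

/-- The Hecke algebra in weight `k ≤ 1` is a finite `ℤ`-module (the space of forms is `0`). -/
theorem finite_of_le_one (N : ℕ) [NeZero N] (k : ℤ) (hk : k ≤ 1) (S : Set ℕ) :
    Module.Finite ℤ (CuspForm.heckeAlgebra N k S) :=
  finite_of_forall_eq_zero N k S (cuspForm_eq_zero_of_le_one N hk)

/-- The Hecke algebra in odd weight is a finite `ℤ`-module (the space of forms is `0`). -/
theorem finite_of_odd (N : ℕ) [NeZero N] (k : ℤ) (hk : Odd k) (S : Set ℕ) :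
    Module.Finite ℤ (CuspForm.heckeAlgebra N k S) :=
  finite_of_forall_eq_zero N k S (cuspForm_eq_zero_of_odd N hk)

end Fermat.Agent.S22
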