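/-
S22 support library: `Γ₀(N)` is a finitely generated group.
-/
import Mathlib

set_option autoImplicit false

open scoped MatrixGroups

namespace Fermat.Agent.S22

/-- `SL(2, ℤ)` is finitely generated (by `S` and `T`). -/
theorem sl2Z_fg : Group.FG SL(2, ℤ) := by
  rw [Group.fg_iff]
  exact ⟨{ModularGroup.S, ModularGroup.T}, SpecialLinearGroup.SL2Z_generators, by simp⟩

/-- `Γ₀(N)` is a finitely generated group (Schreier's lemma). -/
theorem gamma0_fg (N : ℕ) [NeZero N] : Group.FG ↥(CongruenceSubgroup.Gamma0 N) := by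
  have : Group.FG SL(2, ℤ) := sl2Z_fg
  exact Subgroup.fg_of_index_ne_zero _

/-- Convenience form: a finite subset of `Γ₀(N)` whose closure in `SL(2, ℤ)` is `Γ₀(N)`. -/
theorem gamma0_closure (N : ℕ) [NeZero N] :
    ∃ s : Finset SL(2, ℤ), Subgroup.closure (s : Set SL(2, ℤ)) = CongruenceSubgroup.Gamma0 N :=
  (Group.fg_iff_subgroup_fg _).mp (gamma0_fg N)

end Fermat.Agent.S22
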