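import Mathlib

set_option autoImplicit false

namespace Fermat.Agent.S22

/-- If a finitely generated `ℤ`-submodule `M` of the dual of a `ℂ`-vector space `V` separates
points and is stable under precomposition with a set `gens` of endomorphisms, then the
`ℤ`-algebra generated by `gens` is a finitely generated `ℤ`-module. -/
theorem finite_adjoin_of_lattice {V : Type*} [AddCommGroup V] [Module ℂ V]
    (M : Submodule ℤ (Module.Dual ℂ V)) (hfg : M.FG)
    (hsep : ∀ v : V, (∀ φ ∈ M, φ v = 0) → v = 0)
    (gens : Set (Module.End ℂ V))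
    (hstab : ∀ T ∈ gens, ∀ φ ∈ M, φ ∘ₗ T ∈ M) :
    Module.Finite ℤ (Algebra.adjoin ℤ gens) := by
  -- stability under the whole adjoined algebra
  have hstab' : ∀ t ∈ Algebra.adjoin ℤ gens, ∀ φ ∈ M, φ ∘ₗ t ∈ M := by
    intro t ht
    induction ht using Algebra.adjoin_induction with
    | mem x hx => exact hstab x hx
    | algebraMap r =>
      intro φ hφ
      have : φ ∘ₗ (algebraMap ℤ (Module.End ℂ V) r) = r • φ := by
        ext v
        simp
      rw [this]
      exact M.smul_mem r hφ
    | add x y _ _ hx hy =>
      intro φ hφ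
      rw [LinearMap.comp_add]
      exact M.add_mem (hx φ hφ) (hy φ hφ)
    | mul x y _ _ hx hy =>
      intro φ hφ
      have : φ ∘ₗ (x * y) = (φ ∘ₗ x) ∘ₗ y := rfl
      rw [this]
      exact hy _ (hx φ hφ)
  have : Module.Finite ℤ M := Module.Finite.iff_fg.mpr hfg
  have : IsNoetherian ℤ (M →ₗ[ℤ] M) := by
    have : IsNoetherian ℤ M := isNoetherian_of_isNoetherianRing_of_finite ℤ M
    obtain ⟨n, s, hs⟩ := Module.Finite.exists_fin (R := ℤ) (M := M)
    let ev : (M →ₗ[ℤ] M) →ₗ[ℤ] (Fin n → M) :=
      { toFun := fun f i => f (s i)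
        map_add' := fun f g => rfl
        map_smul' := fun c f => rfl }
    refine isNoetherian_of_injective ev ?_
    intro f g hfg'
    apply LinearMap.ext_on_range hs
    intro i
    exact congrFun hfg' i
  -- the action map
  let Θ : (Algebra.adjoin ℤ gens) →ₗ[ℤ] (M →ₗ[ℤ] M) :=
    { toFun := fun t =>
        { toFun := fun φ => ⟨(φ : Module.Dual ℂ V) ∘ₗ (t : Module.End ℂ V), hstab' t t.2 φ φ.2⟩
          map_add' := fun φ ψ => by
            apply Subtype.ext
            simp [LinearMap.add_comp]
          map_smul' := fun c φ => by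
            apply Subtype.ext
            simp [LinearMap.smul_comp] }
      map_add' := fun s t => by
        apply LinearMap.ext
        intro φ
        apply Subtype.ext
        simp [LinearMap.comp_add]
      map_smul' := fun c t => by
        apply LinearMap.ext
        intro φ
        apply Subtype.ext
        apply LinearMap.ext
        intro v
        simp }
  refine Module.Finite.of_injective Θ ?_
  intro s t hst
  apply Subtype.ext
  apply LinearMap.ext
  intro v
  rw [← sub_eq_zero]
  apply hsep
  intro φ hφ
  have h1 := congrArg (fun F : M →ₗ[ℤ] M => ((F ⟨φ, hφ⟩ : M) : Module.Dual ℂ V) v) hst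
  simp only [Θ, LinearMap.coe_mk, AddHom.coe_mk, LinearMap.comp_apply] at h1
  rw [map_sub, h1, sub_self]

end Fermat.Agent.S22
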