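import Mathlib
import Fermat.Prelude.Thm_ModularForm_sturm_bound_Gamma0
import Fermat.Prelude.Thm_CongruenceSubgroup_one_mem_strictPeriods_Gamma0

set_option autoImplicit false

namespace Fermat.Agent.S22

open UpperHalfPlane Matrix.SpecialLinearGroup
open scoped MatrixGroups ModularForm Manifold

/-- A holomorphic function on `ℍ` which is weight `-w` invariant under `Γ₀(N)` (`w ≥ 0`),
bounded at every cusp and zero at `i∞`, vanishes identically.  (Sturm bound in weight `≤ 0`.) -/
theorem eq_zero_of_nonpos_weight (N : ℕ) [NeZero N] (w : ℕ) (F : ℍ → ℂ)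
    (hinv : ∀ γ ∈ (CongruenceSubgroup.Gamma0 N : Subgroup (GL (Fin 2) ℝ)), F ∣[(-(w : ℤ))] γ = F)
    (hholo : MDiff F)
    (hbdd : ∀ σ : SL(2, ℤ), IsBoundedAtImInfty (F ∣[(-(w : ℤ))] σ))
    (hzero : IsZeroAtImInfty F) : F = 0 := by
  let Ff : ModularForm (CongruenceSubgroup.Gamma0 N : Subgroup (GL (Fin 2) ℝ)) (-(w : ℤ)) :=
    { toFun := F
      slash_action_eq' := hinv
      holo' := hholo
      bdd_at_cusps' := fun {c} hc => by
        have hc' : IsCusp c 𝒮ℒ := (Subgroup.IsArithmetic.isCusp_iff_isCusp_SL2Z _).mp hc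
        exact (OnePoint.isBoundedAt_iff_forall_SL2Z hc').mpr (fun γ _ => hbdd γ) }
  have hFf : (Ff : ℍ → ℂ) = F := rfl
  have h0 : Ff = 0 := by
    refine ModularForm.sturm_bound_Gamma0 N Ff (fun n hn => ?_)
    have hle : (-(w : ℤ)) * ((CongruenceSubgroup.Gamma0 N).index : ℤ) ≤ 0 := by
      have : (0 : ℤ) ≤ ((CongruenceSubgroup.Gamma0 N).index : ℤ) := Int.natCast_nonneg _
      nlinarith [Int.natCast_nonneg w]
    have hn0 : n = 0 := by
      have : ((-(w : ℤ)) * ((CongruenceSubgroup.Gamma0 N).index : ℤ)).toNat = 0 :=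
        Int.toNat_of_nonpos hle
      rw [this] at hn
      simpa using hn
    subst hn0
    have hper : Function.Periodic (F ∘ ofComplex) 1 := by
      have := SlashInvariantFormClass.periodic_comp_ofComplex (h := 1) Ff
        (by exact_mod_cast CongruenceSubgroup.one_mem_strictPeriods_Gamma0 N)
      simpa [hFf] using this
    have han : AnalyticAt ℂ (cuspFunction 1 F) 0 :=
      analyticAt_cuspFunction_zero one_pos hper hholo hzero.isBoundedAtImInfty
    rw [hFf, qExpansion_coeff_zero one_pos han hper, hzero.valueAtInfty_eq_zero]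
  have := congrArg (fun g : ModularForm _ _ => (g : ℍ → ℂ)) h0
  simpa [hFf] using this

end Fermat.Agent.S22
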