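/-
S22 support library: a cusp form all of whose period polynomials vanish is zero.
-/
import Fermat.Agent.S22.Period
import Fermat.Agent.S22.Forms
import Fermat.Agent.S22.Vanish
import Fermat.Prelude.Thm_ModularForm_sturm_bound_Gamma0

set_option autoImplicit false

open UpperHalfPlane Filter Function Polynomial
open scoped MatrixGroups ModularForm Manifold Topology

namespace Fermat.Agent.S22

/-- Evaluating `K_g(A • z) | A` on the diagonal `x = z`. -/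
theorem eval_polyAct_kerPoly_diag {w : ℕ} (g : ℍ → ℂ) {A : GL (Fin 2) ℝ} (hA : 0 < A.det.val)
    (z : ℍ) :
    (polyAct w A (kerPoly w g (A • z))).eval (z : ℂ) =
      denom A z ^ w * ((w.factorial : ℂ) * iterPrim (w + 1) g (A • z)) := by
  rw [eval_polyAct hA (natDegree_kerPoly_le w _ _) z, eval_kerPoly, kerFun_self]

/-- The weight `-w` slash by an element of `SL(2, ℤ)`, unfolded. -/
theorem slash_neg_mapGL_apply (w : ℕ) (E : ℍ → ℂ) (γ : SL(2, ℤ)) (z : ℍ) :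
    (E ∣[-(w : ℤ)] (Matrix.SpecialLinearGroup.mapGL ℝ γ : GL (Fin 2) ℝ)) z =
      denom (Matrix.SpecialLinearGroup.mapGL ℝ γ : GL (Fin 2) ℝ) z ^ w *
        E ((Matrix.SpecialLinearGroup.mapGL ℝ γ : GL (Fin 2) ℝ) • z) := by
  have h := ModularForm.SL_slash_apply (k := -(w : ℤ)) E γ z
  rw [neg_neg, zpow_natCast, mul_comm] at h
  exact h

/-- If all period polynomials of `f` along `Γ₀(N)` vanish then the Eichler integral
`iterPrim (w+1) f` is invariant of weight `-w` under `Γ₀(N)` (evaluate `periodPoly_spec` at `x = z`). -/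
theorem iterPrim_slash_of_periodPoly_eq_zero {N : ℕ} [NeZero N] {k : ℤ} {w : ℕ}
    (hk : k = (w : ℤ) + 2) (f : CuspForm (CongruenceSubgroup.Gamma0 N) k)
    (h0 : ∀ γ ∈ CongruenceSubgroup.Gamma0 N,
      periodPoly w f (Matrix.SpecialLinearGroup.mapGL ℝ γ : GL (Fin 2) ℝ) = 0)
    {γ : SL(2, ℤ)} (hγ : γ ∈ CongruenceSubgroup.Gamma0 N) :
    (iterPrim (w + 1) (f : ℍ → ℂ)) ∣[-(w : ℤ)] (Matrix.SpecialLinearGroup.mapGL ℝ γ : GL (Fin 2) ℝ) =
      iterPrim (w + 1) (f : ℍ → ℂ) := by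
  have hAdet : 0 < (Matrix.SpecialLinearGroup.mapGL ℝ γ : GL (Fin 2) ℝ).det.val := det_mapGL_pos γ
  have hf : CuspPer 1 (f : ℍ → ℂ) := cuspForm_cuspPer f
  have hfA : (f : ℍ → ℂ) ∣[k] (Matrix.SpecialLinearGroup.mapGL ℝ γ : GL (Fin 2) ℝ) = f :=
    cuspForm_slash_mapGL f hγ
  funext z
  have hspec := periodPoly_spec hk one_pos hf hAdet hfA z
  rw [h0 γ hγ, add_zero] at hspec
  have heval : (polyAct w (Matrix.SpecialLinearGroup.mapGL ℝ γ : GL (Fin 2) ℝ)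
      (kerPoly w (f : ℍ → ℂ) ((Matrix.SpecialLinearGroup.mapGL ℝ γ : GL (Fin 2) ℝ) • z))).eval (z : ℂ) =
      (kerPoly w (f : ℍ → ℂ) z).eval (z : ℂ) := by rw [hspec]
  rw [eval_polyAct_kerPoly_diag _ hAdet, eval_kerPoly, kerFun_self] at heval
  have hw : (w.factorial : ℂ) ≠ 0 := by exact_mod_cast w.factorial_ne_zero
  rw [slash_neg_mapGL_apply]
  apply mul_left_cancel₀ hw
  rw [← heval]
  ring

/-- Conjugating a translation by `N` by an element of `SL(2, ℤ)` lands in `Γ₀(N)`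
(local copy, independent of other files). -/
theorem injAux_conj_T_zpow_mem (N : ℕ) (δ : SL(2, ℤ)) :
    δ * ModularGroup.T ^ (N : ℤ) * δ⁻¹ ∈ CongruenceSubgroup.Gamma0 N := by
  rw [CongruenceSubgroup.Gamma0_mem]
  have hT : ((ModularGroup.T ^ (N : ℤ) : SL(2, ℤ)) : Matrix (Fin 2) (Fin 2) ℤ) = !![1, (N : ℤ); 0, 1] :=
    ModularGroup.coe_T_zpow (N : ℤ)
  have h1 : ((δ * ModularGroup.T ^ (N : ℤ) * δ⁻¹ : SL(2, ℤ)) : Matrix (Fin 2) (Fin 2) ℤ) 1 0 =
      -((N : ℤ) * (δ 1 0) ^ 2) := by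
    rw [Matrix.SpecialLinearGroup.coe_mul, Matrix.SpecialLinearGroup.coe_mul, hT,
      Matrix.SpecialLinearGroup.SL2_inv_expl, Matrix.mul_apply, Fin.sum_univ_two,
      Matrix.mul_apply, Matrix.mul_apply, Fin.sum_univ_two, Fin.sum_univ_two]
    simp
    ring
  rw [h1]
  push_cast
  simp

/-- Under the same hypothesis, every `SL(2, ℤ)`-translate of the Eichler integral is `N`-periodic. -/
theorem iterPrim_slash_vadd {N : ℕ} [NeZero N] {k : ℤ} {w : ℕ}
    (hk : k = (w : ℤ) + 2) (f : CuspForm (CongruenceSubgroup.Gamma0 N) k)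
    (h0 : ∀ γ ∈ CongruenceSubgroup.Gamma0 N,
      periodPoly w f (Matrix.SpecialLinearGroup.mapGL ℝ γ : GL (Fin 2) ℝ) = 0)
    (δ : SL(2, ℤ)) (z : ℍ) :
    ((iterPrim (w + 1) (f : ℍ → ℂ)) ∣[-(w : ℤ)]
        (Matrix.SpecialLinearGroup.mapGL ℝ δ : GL (Fin 2) ℝ)) (((N : ℤ) : ℝ) +ᵥ z) =
      ((iterPrim (w + 1) (f : ℍ → ℂ)) ∣[-(w : ℤ)]
        (Matrix.SpecialLinearGroup.mapGL ℝ δ : GL (Fin 2) ℝ)) z := by
  set E := iterPrim (w + 1) (f : ℍ → ℂ) with hE
  have hmem := injAux_conj_T_zpow_mem N δ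
  have hinv := iterPrim_slash_of_periodPoly_eq_zero hk f h0 hmem
  -- `E ∣ δ ∣ T^N = E ∣ (δ T^N δ⁻¹) ∣ δ = E ∣ δ`
  have h1 : (E ∣[-(w : ℤ)] δ) ∣[-(w : ℤ)] (ModularGroup.T ^ (N : ℤ)) = E ∣[-(w : ℤ)] δ := by
    rw [← SlashAction.slash_mul]
    have : δ * ModularGroup.T ^ (N : ℤ) = (δ * ModularGroup.T ^ (N : ℤ) * δ⁻¹) * δ := by group
    rw [this, SlashAction.slash_mul]
    congr 1
  have h2 := congrFun h1 z
  rw [ModularForm.SL_slash_apply, UpperHalfPlane.modular_T_zpow_smul] at h2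
  have hden : denom (ModularGroup.T ^ (N : ℤ) : SL(2, ℤ)) z = 1 := by
    have hT : ((ModularGroup.T ^ (N : ℤ) : SL(2, ℤ)) : Matrix (Fin 2) (Fin 2) ℤ) =
        !![1, (N : ℤ); 0, 1] := ModularGroup.coe_T_zpow (N : ℤ)
    rw [ModularGroup.denom_apply, hT]
    simp
  rw [hden, one_zpow, mul_one] at h2
  exact h2

/-- Under the same hypothesis, every `SL(2, ℤ)`-translate of the Eichler integral is bounded at
`i∞`: by `kerPoly_sum_slash` (one summand) `K_f(δz) | δ = K_{f∣δ}(z) + C₀`; evaluating at `x = z`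
gives `w! (E ∣[-w] δ)(z) = w! iterPrim (w+1) (f∣δ) z + C₀(z)`; both `E ∣[-w] δ` and
`iterPrim (w+1) (f∣δ)` are `N`-periodic, so `C₀` is constant (`poly_eq_C_of_periodic`). -/
theorem iterPrim_slash_bounded {N : ℕ} [NeZero N] {k : ℤ} {w : ℕ}
    (hk : k = (w : ℤ) + 2) (f : CuspForm (CongruenceSubgroup.Gamma0 N) k)
    (h0 : ∀ γ ∈ CongruenceSubgroup.Gamma0 N,
      periodPoly w f (Matrix.SpecialLinearGroup.mapGL ℝ γ : GL (Fin 2) ℝ) = 0)
    (δ : SL(2, ℤ)) :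
    IsBoundedAtImInfty
      ((iterPrim (w + 1) (f : ℍ → ℂ)) ∣[-(w : ℤ)]
        (Matrix.SpecialLinearGroup.mapGL ℝ δ : GL (Fin 2) ℝ)) := by
  set A : GL (Fin 2) ℝ := (Matrix.SpecialLinearGroup.mapGL ℝ δ : GL (Fin 2) ℝ) with hA
  have hAdet : 0 < A.det.val := det_mapGL_pos δ
  have hN : (0 : ℝ) < (N : ℝ) := by exact_mod_cast Nat.pos_of_ne_zero (NeZero.ne N)
  have hf : CuspPer 1 (f : ℍ → ℂ) := cuspForm_cuspPer f
  set g : ℍ → ℂ := (f : ℍ → ℂ) ∣[k] A with hg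
  have hgP : CuspPer (N : ℝ) g := cuspForm_slash_cuspPer f δ
  obtain ⟨C₀, -, hC₀⟩ := kerPoly_sum_slash (ι := Unit) hk one_pos hN hf hgP Finset.univ
    (fun _ => A) (fun _ _ => hAdet) (by simp [hg])
  set E := iterPrim (w + 1) (f : ℍ → ℂ) with hE
  set G := iterPrim (w + 1) g with hG
  have hGP : CuspPer (N : ℝ) G := iterPrim_cuspPer hN hgP (w + 1)
  have hw : (w.factorial : ℂ) ≠ 0 := by exact_mod_cast w.factorial_ne_zero
  -- the key pointwise identity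
  have key : ∀ z : ℍ, (w.factorial : ℂ) * (E ∣[-(w : ℤ)] A) z =
      (w.factorial : ℂ) * G z + C₀.eval (z : ℂ) := by
    intro z
    have h := congrArg (fun P : ℂ[X] => P.eval (z : ℂ)) (hC₀ z)
    simp only [Finset.univ_unique, Finset.sum_singleton, eval_add] at h
    rw [eval_polyAct_kerPoly_diag _ hAdet, eval_kerPoly, kerFun_self] at h
    rw [slash_neg_mapGL_apply, ← h]
    ring
  -- periodicity of `G`
  have hGper : ∀ z : ℍ, G (((N : ℤ) : ℝ) +ᵥ z) = G z := by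
    intro z
    have h := hGP.per (z : ℂ)
    simp only [Function.comp_apply] at h
    have e1 : ofComplex ((z : ℂ) + ((N : ℝ) : ℂ)) = ((N : ℤ) : ℝ) +ᵥ z := by
      have : ((z : ℂ) + ((N : ℝ) : ℂ)) = (((((N : ℤ) : ℝ) +ᵥ z : ℍ)) : ℂ) := by
        rw [UpperHalfPlane.coe_vadd]; push_cast; ring
      rw [this, ofComplex_apply]
    rw [e1, ofComplex_apply] at h
    exact h
  -- hence `C₀` is periodic, hence constant
  have hCper : ∀ x : ℍ, C₀.eval ((x : ℂ) + ((N : ℝ) : ℂ)) = C₀.eval (x : ℂ) := by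
    intro x
    have e : ((x : ℂ) + ((N : ℝ) : ℂ)) = (((((N : ℤ) : ℝ) +ᵥ x : ℍ)) : ℂ) := by
      rw [UpperHalfPlane.coe_vadd]; push_cast; ring
    have k1 := key (((N : ℤ) : ℝ) +ᵥ x)
    have k2 := key x
    rw [iterPrim_slash_vadd hk f h0 δ x, hGper x] at k1
    rw [e]
    linear_combination k2 - k1
  have hCconst : C₀ = C (C₀.coeff 0) := poly_eq_C_of_periodic hN.ne' hCper
  have hfun : (E ∣[-(w : ℤ)] A) = G + fun _ => (C₀.coeff 0) / (w.factorial : ℂ) := by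
    funext z
    have k2 := key z
    rw [hCconst, eval_C] at k2
    simp only [Pi.add_apply]
    field_simp
    linear_combination k2
  rw [hfun]
  exact hGP.zero.isBoundedAtImInfty.add (Filter.const_boundedAtFilter _ _)

/-- Separation: a cusp form on `Γ₀(N)` of weight `k = w + 2` whose period polynomials all vanish
is zero (the Eichler integral is then a modular form of weight `-w ≤ 0` vanishing at `i∞`, hence
zero by the Sturm bound of the prelude). -/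
theorem eq_zero_of_periodPoly_eq_zero {N : ℕ} [NeZero N] {k : ℤ} {w : ℕ}
    (hk : k = (w : ℤ) + 2) (f : CuspForm (CongruenceSubgroup.Gamma0 N) k)
    (h0 : ∀ γ ∈ CongruenceSubgroup.Gamma0 N,
      periodPoly w f (Matrix.SpecialLinearGroup.mapGL ℝ γ : GL (Fin 2) ℝ) = 0) : f = 0 := by
  have hf : CuspPer 1 (f : ℍ → ℂ) := cuspForm_cuspPer f
  have hEP : CuspPer 1 (iterPrim (w + 1) (f : ℍ → ℂ)) := iterPrim_cuspPer one_pos hf (w + 1)
  have hE0 : iterPrim (w + 1) (f : ℍ → ℂ) = 0 := by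
    refine eq_zero_of_nonpos_weight N w _ ?_ hEP.mdiff ?_ hEP.zero
    · rintro γ ⟨γ', hγ', rfl⟩
      exact iterPrim_slash_of_periodPoly_eq_zero hk f h0 hγ'
    · intro σ
      exact iterPrim_slash_bounded hk f h0 σ
  have hf0 : (f : ℍ → ℂ) = 0 := eq_zero_of_iterPrim_eq_zero one_pos hf (w + 1) hE0
  exact DFunLike.coe_injective (by rw [hf0]; rfl)

end Fermat.Agent.S22
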