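/-
S22 support library: the period lattice in the dual of `S_k(Γ₀(N))`.
-/
import Fermat.Agent.S22.Hecke
import Fermat.Agent.S22.Inj
import Fermat.Agent.S22.GammaFG

set_option autoImplicit false

open UpperHalfPlane Filter Function Polynomial
open scoped MatrixGroups ModularForm Manifold Topology

namespace Fermat.Agent.S22

/-- The functional `f ↦ coeff_j (ρ_f(γ))`. -/
noncomputable def periodFunctional (N : ℕ) [NeZero N] (k : ℤ) (w : ℕ) (γ : SL(2, ℤ)) (j : ℕ) :
    Module.Dual ℂ (CuspForm (CongruenceSubgroup.Gamma0 N) k) where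
  toFun f := (periodPoly w (f : ℍ → ℂ) (Matrix.SpecialLinearGroup.mapGL ℝ γ : GL (Fin 2) ℝ)).coeff j
  map_add' f g := by
    have h : ((f + g : CuspForm (CongruenceSubgroup.Gamma0 N) k) : ℍ → ℂ) =
        (f : ℍ → ℂ) + (g : ℍ → ℂ) := rfl
    rw [h, periodPoly_add w one_pos (cuspForm_cuspPer f) (cuspForm_cuspPer g), coeff_add]
  map_smul' c f := by
    have h : ((c • f : CuspForm (CongruenceSubgroup.Gamma0 N) k) : ℍ → ℂ) =
        c • (f : ℍ → ℂ) := rfl
    rw [h, periodPoly_smul w one_pos c (cuspForm_cuspPer f), coeff_smul, RingHom.id_apply]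

theorem periodFunctional_apply (N : ℕ) [NeZero N] (k : ℤ) (w : ℕ) (γ : SL(2, ℤ)) (j : ℕ)
    (f : CuspForm (CongruenceSubgroup.Gamma0 N) k) :
    periodFunctional N k w γ j f =
      (periodPoly w (f : ℍ → ℂ) (Matrix.SpecialLinearGroup.mapGL ℝ γ : GL (Fin 2) ℝ)).coeff j := rfl

/-- The period lattice: the `ℤ`-span of all period functionals along `Γ₀(N)`. -/
noncomputable def periodLattice (N : ℕ) [NeZero N] (k : ℤ) (w : ℕ) :
    Submodule ℤ (Module.Dual ℂ (CuspForm (CongruenceSubgroup.Gamma0 N) k)) :=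
  Submodule.span ℤ {φ | ∃ γ ∈ CongruenceSubgroup.Gamma0 N, ∃ j ∈ Finset.range (w + 1),
    φ = periodFunctional N k w γ j}

/-- If the coefficient functionals of `f ↦ P f` (for `l ≤ w`) lie in a `ℤ`-submodule `L`, so do
the coefficient functionals of `f ↦ polyAct w B (P f)` when `B` has integer entries. -/
theorem polyAct_coeff_functional_mem {V : Type*} [AddCommGroup V] [Module ℂ V]
    (L : Submodule ℤ (Module.Dual ℂ V)) (w : ℕ) {B : GL (Fin 2) ℝ}
    (hB : ∀ i j, ∃ n : ℤ, B i j = (n : ℝ)) (P : V → ℂ[X]) (ψ : ℕ → Module.Dual ℂ V)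
    (hψ : ∀ l ∈ Finset.range (w + 1), ∀ f, ψ l f = (P f).coeff l)
    (hψL : ∀ l ∈ Finset.range (w + 1), ψ l ∈ L) (j : ℕ) (φ : Module.Dual ℂ V)
    (hφ : ∀ f, φ f = (polyAct w B (P f)).coeff j) : φ ∈ L := by
  obtain ⟨m, hm⟩ := polyAct_coeff_int w hB j
  have hφ' : φ = ∑ l ∈ Finset.range (w + 1), m l • ψ l := by
    apply LinearMap.ext
    intro f
    rw [hφ f, hm (P f), LinearMap.sum_apply]
    refine Finset.sum_congr rfl fun l hl => ?_
    rw [LinearMap.smul_apply, hψ l hl f, zsmul_eq_mul]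
  rw [hφ']
  exact L.sum_mem fun l hl => L.smul_mem _ (hψL l hl)

/-- Cocycle relation on functionals: the functionals along `γ * δ` are integer combinations of
those along `γ` and `δ`. -/
theorem periodFunctional_mul_mem {N : ℕ} [NeZero N] {k : ℤ} {w : ℕ} (hk : k = (w : ℤ) + 2)
    {γ δ : SL(2, ℤ)} (hγ : γ ∈ CongruenceSubgroup.Gamma0 N) (hδ : δ ∈ CongruenceSubgroup.Gamma0 N)
    (L : Submodule ℤ (Module.Dual ℂ (CuspForm (CongruenceSubgroup.Gamma0 N) k)))
    (hLγ : ∀ j ∈ Finset.range (w + 1), periodFunctional N k w γ j ∈ L)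
    (hLδ : ∀ j ∈ Finset.range (w + 1), periodFunctional N k w δ j ∈ L) :
    ∀ j ∈ Finset.range (w + 1), periodFunctional N k w (γ * δ) j ∈ L := by
  intro j hj
  -- the functional `f ↦ coeff_j (polyAct w δ (ρ_f γ))`
  have hkey : ∀ f : CuspForm (CongruenceSubgroup.Gamma0 N) k,
      periodPoly w (f : ℍ → ℂ) (Matrix.SpecialLinearGroup.mapGL ℝ (γ * δ) : GL (Fin 2) ℝ) =
        polyAct w (Matrix.SpecialLinearGroup.mapGL ℝ δ : GL (Fin 2) ℝ)
          (periodPoly w (f : ℍ → ℂ) (Matrix.SpecialLinearGroup.mapGL ℝ γ : GL (Fin 2) ℝ)) +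
        periodPoly w (f : ℍ → ℂ) (Matrix.SpecialLinearGroup.mapGL ℝ δ : GL (Fin 2) ℝ) := by
    intro f
    rw [map_mul]
    exact periodPoly_mul hk one_pos (cuspForm_cuspPer f) (det_mapGL_pos γ) (det_mapGL_pos δ)
      (cuspForm_slash_mapGL f hγ) (cuspForm_slash_mapGL f hδ)
  have h1 : periodFunctional N k w (γ * δ) j - periodFunctional N k w δ j ∈ L := by
    refine polyAct_coeff_functional_mem L w (mapGL_int_entries δ)
      (fun f => periodPoly w (f : ℍ → ℂ) (Matrix.SpecialLinearGroup.mapGL ℝ γ : GL (Fin 2) ℝ))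
      (fun l => periodFunctional N k w γ l) (fun l _ f => rfl) hLγ j _ ?_
    intro f
    rw [LinearMap.sub_apply, periodFunctional_apply, periodFunctional_apply, hkey f, coeff_add,
      add_sub_cancel_right]
  have h2 := L.add_mem h1 (hLδ j hj)
  rwa [sub_add_cancel] at h2

theorem periodFunctional_one_mem {N : ℕ} [NeZero N] {k : ℤ} {w : ℕ}
    (L : Submodule ℤ (Module.Dual ℂ (CuspForm (CongruenceSubgroup.Gamma0 N) k))) :
    ∀ j ∈ Finset.range (w + 1), periodFunctional N k w 1 j ∈ L := by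
  intro j _
  have h0 : periodFunctional N k w 1 j = 0 := by
    apply LinearMap.ext
    intro f
    rw [periodFunctional_apply, map_one, periodPoly_one one_pos (cuspForm_cuspPer f), coeff_zero,
      LinearMap.zero_apply]
  rw [h0]
  exact L.zero_mem

theorem periodFunctional_inv_mem {N : ℕ} [NeZero N] {k : ℤ} {w : ℕ} (hk : k = (w : ℤ) + 2)
    {γ : SL(2, ℤ)} (hγ : γ ∈ CongruenceSubgroup.Gamma0 N)
    (L : Submodule ℤ (Module.Dual ℂ (CuspForm (CongruenceSubgroup.Gamma0 N) k)))
    (hLγ : ∀ j ∈ Finset.range (w + 1), periodFunctional N k w γ j ∈ L) :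
    ∀ j ∈ Finset.range (w + 1), periodFunctional N k w γ⁻¹ j ∈ L := by
  intro j _
  have hγ' : γ⁻¹ ∈ CongruenceSubgroup.Gamma0 N := inv_mem hγ
  have hkey : ∀ f : CuspForm (CongruenceSubgroup.Gamma0 N) k,
      polyAct w (Matrix.SpecialLinearGroup.mapGL ℝ γ⁻¹ : GL (Fin 2) ℝ)
          (periodPoly w (f : ℍ → ℂ) (Matrix.SpecialLinearGroup.mapGL ℝ γ : GL (Fin 2) ℝ)) +
        periodPoly w (f : ℍ → ℂ) (Matrix.SpecialLinearGroup.mapGL ℝ γ⁻¹ : GL (Fin 2) ℝ) = 0 := by
    intro f
    have h := periodPoly_mul hk one_pos (cuspForm_cuspPer f) (det_mapGL_pos γ) (det_mapGL_pos γ⁻¹)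
      (cuspForm_slash_mapGL f hγ) (cuspForm_slash_mapGL f hγ')
    rw [← map_mul, mul_inv_cancel, map_one, periodPoly_one one_pos (cuspForm_cuspPer f)] at h
    exact h.symm
  have h1 : -periodFunctional N k w γ⁻¹ j ∈ L := by
    refine polyAct_coeff_functional_mem L w (mapGL_int_entries γ⁻¹)
      (fun f => periodPoly w (f : ℍ → ℂ) (Matrix.SpecialLinearGroup.mapGL ℝ γ : GL (Fin 2) ℝ))
      (fun l => periodFunctional N k w γ l) (fun l _ f => rfl) hLγ j _ ?_
    intro f
    rw [LinearMap.neg_apply, periodFunctional_apply, eq_neg_of_add_eq_zero_left (hkey f),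
      coeff_neg]
  have h2 := L.neg_mem h1
  rwa [neg_neg] at h2

theorem periodLattice_fg {N : ℕ} [NeZero N] {k : ℤ} {w : ℕ} (hk : k = (w : ℤ) + 2) :
    (periodLattice N k w).FG := by
  classical
  obtain ⟨s, hs⟩ := gamma0_closure N
  -- the finite generating set
  let G : Finset (Module.Dual ℂ (CuspForm (CongruenceSubgroup.Gamma0 N) k)) :=
    (s ×ˢ Finset.range (w + 1)).image (fun x => periodFunctional N k w x.1 x.2)
  have hG : periodLattice N k w = Submodule.span ℤ (G : Set _) := by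
    apply le_antisymm
    · refine Submodule.span_le.mpr ?_
      rintro φ ⟨γ, hγ, j, hj, rfl⟩
      have hγ' : γ ∈ Subgroup.closure (s : Set SL(2, ℤ)) := by rw [hs]; exact hγ
      revert j
      refine Subgroup.closure_induction
        (p := fun γ _ => ∀ j ∈ Finset.range (w + 1),
          periodFunctional N k w γ j ∈ Submodule.span ℤ (G : Set _)) ?_ ?_ ?_ ?_ hγ'
      · intro x hx j hj
        apply Submodule.subset_span
        exact Finset.mem_coe.mpr (Finset.mem_image.mpr ⟨(x, j), Finset.mem_product.mpr ⟨hx, hj⟩, rfl⟩)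
      · exact periodFunctional_one_mem _
      · intro x y hx hy hx' hy'
        exact periodFunctional_mul_mem hk (hs ▸ hx) (hs ▸ hy) _ hx' hy'
      · intro x hx hx'
        exact periodFunctional_inv_mem hk (hs ▸ hx) _ hx'
    · refine Submodule.span_le.mpr ?_
      intro φ hφ
      obtain ⟨⟨γ, j⟩, hx, rfl⟩ := Finset.mem_image.mp (Finset.mem_coe.mp hφ)
      obtain ⟨hγ, hj⟩ := Finset.mem_product.mp hx
      apply Submodule.subset_span
      refine ⟨γ, ?_, j, hj, rfl⟩
      rw [← hs]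
      exact Subgroup.subset_closure hγ
  rw [hG]
  exact Submodule.fg_span (Finset.finite_toSet G)

theorem periodLattice_sep {N : ℕ} [NeZero N] {k : ℤ} {w : ℕ} (hk : k = (w : ℤ) + 2)
    (f : CuspForm (CongruenceSubgroup.Gamma0 N) k)
    (h : ∀ φ ∈ periodLattice N k w, φ f = 0) : f = 0 := by
  apply eq_zero_of_periodPoly_eq_zero hk f
  intro γ hγ
  apply Polynomial.ext
  intro j
  rw [coeff_zero]
  by_cases hj : j ∈ Finset.range (w + 1)
  · have := h (periodFunctional N k w γ j) (Submodule.subset_span ⟨γ, hγ, j, hj, rfl⟩)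
    rwa [periodFunctional_apply] at this
  · apply coeff_eq_zero_of_natDegree_lt
    have := natDegree_periodPoly_le w (f : ℍ → ℂ)
      (Matrix.SpecialLinearGroup.mapGL ℝ γ : GL (Fin 2) ℝ)
    rw [Finset.mem_range] at hj
    omega

/-- Stability of a `ℤ`-submodule generated by period functionals under an operator whose period
polynomials are integral combinations of period polynomials. -/
theorem periodLattice_stable_aux {N : ℕ} [NeZero N] {k : ℤ} {w : ℕ}
    (T : Module.End ℂ (CuspForm (CongruenceSubgroup.Gamma0 N) k))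
    (hT : ∀ γ ∈ CongruenceSubgroup.Gamma0 N,
      ∃ (ι : Type) (_ : Fintype ι) (γ' : ι → SL(2, ℤ)) (β : ι → GL (Fin 2) ℝ),
      (∀ i, γ' i ∈ CongruenceSubgroup.Gamma0 N) ∧ (∀ i a b, ∃ n : ℤ, (β i) a b = (n : ℝ)) ∧
      ∀ f : CuspForm (CongruenceSubgroup.Gamma0 N) k,
        periodPoly w ((T f : CuspForm (CongruenceSubgroup.Gamma0 N) k) : ℍ → ℂ)
            (Matrix.SpecialLinearGroup.mapGL ℝ γ : GL (Fin 2) ℝ) =
          ∑ i, polyAct w (β i)
            (periodPoly w (f : ℍ → ℂ)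
              (Matrix.SpecialLinearGroup.mapGL ℝ (γ' i) : GL (Fin 2) ℝ))) :
    ∀ φ ∈ periodLattice N k w, φ ∘ₗ T ∈ periodLattice N k w := by
  intro φ hφ
  induction hφ using Submodule.span_induction with
  | mem φ hφ =>
    obtain ⟨γ, hγ, j, hj, rfl⟩ := hφ
    obtain ⟨ι, _, γ', β, hγ', hβ, hf⟩ := hT γ hγ
    -- the functionals `f ↦ coeff_j (polyAct w (β i) (ρ_f (γ' i)))`
    have hi : ∀ i : ι, ∃ ψ : Module.Dual ℂ (CuspForm (CongruenceSubgroup.Gamma0 N) k),
        ψ ∈ periodLattice N k w ∧ ∀ f, ψ f = (polyAct w (β i)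
          (periodPoly w (f : ℍ → ℂ)
            (Matrix.SpecialLinearGroup.mapGL ℝ (γ' i) : GL (Fin 2) ℝ))).coeff j := by
      intro i
      obtain ⟨m, hm⟩ := polyAct_coeff_int w (hβ i) j
      refine ⟨∑ l ∈ Finset.range (w + 1), m l • periodFunctional N k w (γ' i) l, ?_, ?_⟩
      · exact Submodule.sum_mem _ fun l hl => Submodule.smul_mem _ _
          (Submodule.subset_span ⟨γ' i, hγ' i, l, hl, rfl⟩)
      · intro f
        rw [hm, LinearMap.sum_apply]
        refine Finset.sum_congr rfl fun l _ => ?_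
        rw [LinearMap.smul_apply, periodFunctional_apply, zsmul_eq_mul]
    choose ψ hψmem hψ using hi
    have hsum : periodFunctional N k w γ j ∘ₗ T = ∑ i, ψ i := by
      apply LinearMap.ext
      intro f
      rw [LinearMap.comp_apply, periodFunctional_apply, hf f, finsetSum_coeff,
        LinearMap.sum_apply]
      exact Finset.sum_congr rfl fun i _ => (hψ i f).symm
    rw [hsum]
    exact Submodule.sum_mem _ fun i _ => hψmem i
  | zero =>
    rw [LinearMap.zero_comp]
    exact Submodule.zero_mem _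
  | add x y _ _ hx hy =>
    rw [LinearMap.add_comp]
    exact Submodule.add_mem _ hx hy
  | smul c x _ hx =>
    have : (c • x) ∘ₗ T = c • (x ∘ₗ T) := by
      apply LinearMap.ext
      intro f
      simp
    rw [this]
    exact Submodule.smul_mem _ _ hx

theorem periodLattice_stable {N : ℕ} [NeZero N] {k : ℤ} {w : ℕ} (hk : k = (w : ℤ) + 2)
    (S : Set ℕ) :
    ∀ T ∈ CuspForm.heckeGenerators N k S, ∀ φ ∈ periodLattice N k w,
      φ ∘ₗ T ∈ periodLattice N k w := by
  rintro T (⟨ℓ, hℓ, hℓN, -, rfl⟩ | ⟨q, hqN, -, -, rfl⟩)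
  · exact periodLattice_stable_aux _ fun γ hγ => periodPoly_heckeT hk hℓ hℓN hγ
  · exact periodLattice_stable_aux _ fun γ hγ => periodPoly_heckeU hk hqN hγ

end Fermat.Agent.S22
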